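/-
P5 block [MODFUN] (owner: helper91), part 1: LEVEL ONE.

* `exists_clear_poles`: abstract pole clearing on a connected open subset of `ℂ` (Mathlib only).
* `MerAtInfty f g`: the quotient `f / g` of two functions on `ℍ` has at most a pole of finite
  order at `i∞` (`‖Δ^m f‖ ≤ C ‖g‖` near `i∞`).
* `exists_clear_poles_levelOne`: if `f / g` is `SL(2, ℤ)`-invariant with `MerAtInfty f g`, then
  `f * Q(j) = g * h` with a nonzero polynomial `Q` and a holomorphic `h`.
* `exists_ratfun_levelOne`: such a quotient is a rational function of `j`: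
  `f * Q(j) = g * P(j)`.
-/
import Mathlib
import Fermat.Agent.Lib.JStab
import Fermat.Agent.Lib.JSurjPoly
import Fermat.Agent.Lib.HolVal
import Fermat.Agent.Lib.ModCharPoly

set_option autoImplicit false

open Filter Topology Polynomial UpperHalfPlane
open scoped MatrixGroups Manifold Modular

namespace Fermat.Agent.P5.ModFun

open Fermat.Agent.Lib.JStab Fermat.Agent.Lib

local notation "Δ" => ModularForm.discriminant

/-- **Abstract pole clearing.** -/
theorem exists_clear_poles {U K : Set ℂ} (hUc : IsPreconnected U)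
    (hK : IsCompact K) (hKU : K ⊆ U) {F G J : ℂ → ℂ}
    (hF : AnalyticOnNhd ℂ F U) (hG : AnalyticOnNhd ℂ G U) (hJ : AnalyticOnNhd ℂ J U)
    (hG0 : ∃ z ∈ U, G z ≠ 0)
    (hpole : ∀ z ∈ U, meromorphicOrderAt (fun w => F w / G w) z < 0 →
      ∃ z' ∈ K, J z' = J z ∧
        meromorphicOrderAt (fun w => F w / G w) z' ≤ meromorphicOrderAt (fun w => F w / G w) z) :
    ∃ (Q : ℂ[X]) (H : ℂ → ℂ), Q ≠ 0 ∧ AnalyticOnNhd ℂ H U ∧
      ∀ z ∈ U, F z * Q.eval (J z) = G z * H z := by
  classical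
  set Φ : ℂ → ℂ := fun w => F w / G w with hΦdef
  have hΦ : MeromorphicOn Φ U := fun z hz =>
    (hF z hz).meromorphicAt.div (hG z hz).meromorphicAt
  set D := MeromorphicOn.divisor Φ K with hD
  have hfin : D.support.Finite := D.finiteSupport hK
  set Z : Finset ℂ := hfin.toFinset with hZ
  set Q : ℂ[X] := ∏ z ∈ Z, (X - C (J z)) ^ (-(D z)).toNat with hQ
  have hQ0 : Q ≠ 0 := by
    rw [hQ, Finset.prod_ne_zero_iff]
    intro z _
    exact pow_ne_zero _ (X_sub_C_ne_zero _)
  have hQJ : ∀ (P : ℂ[X]), AnalyticOnNhd ℂ (fun w => P.eval (J w)) U := by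
    intro P z hz
    have := (hJ z hz).aeval_polynomial P
    simpa [Polynomial.aeval_def, Polynomial.eval₂_eq_eval_map] using this
  set Ψ : ℂ → ℂ := fun w => Φ w * Q.eval (J w) with hΨdef
  have hΨ : MeromorphicOn Ψ U := fun z hz =>
    (hΦ z hz).mul (hQJ Q z hz).meromorphicAt
  -- nonnegativity of the orders
  have hord : ∀ z ∈ U, 0 ≤ meromorphicOrderAt Ψ z := by
    intro z hz
    have hmul : meromorphicOrderAt Ψ z =
        meromorphicOrderAt Φ z + meromorphicOrderAt (fun w => Q.eval (J w)) z :=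
      meromorphicOrderAt_mul (hΦ z hz) (hQJ Q z hz).meromorphicAt
    rw [hmul]
    have hQnn : 0 ≤ meromorphicOrderAt (fun w => Q.eval (J w)) z :=
      (hQJ Q z hz).meromorphicOrderAt_nonneg
    by_cases hneg : meromorphicOrderAt Φ z < 0
    · obtain ⟨z', hz'K, hJz', hle⟩ := hpole z hz hneg
      have hz'U : z' ∈ U := hKU hz'K
      have hlt' : meromorphicOrderAt Φ z' < 0 := lt_of_le_of_lt hle hneg
      obtain ⟨a, ha⟩ : ∃ a : ℤ, meromorphicOrderAt Φ z' = a :=
        ⟨(meromorphicOrderAt Φ z').untop (ne_top_of_lt hlt'), by simp⟩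
      obtain ⟨b, hb⟩ : ∃ b : ℤ, meromorphicOrderAt Φ z = b :=
        ⟨(meromorphicOrderAt Φ z).untop (ne_top_of_lt hneg), by simp⟩
      have ha0 : a < 0 := by rw [ha] at hlt'; exact_mod_cast hlt'
      have hab : a ≤ b := by rw [ha, hb] at hle; exact_mod_cast hle
      have hDz' : D z' = a := by
        rw [hD, MeromorphicOn.divisor_apply (fun w hw => hΦ w (hKU hw)) hz'K, ha]
        rfl
      have hz'Z : z' ∈ Z := by
        rw [hZ, Set.Finite.mem_toFinset, Function.mem_support, hDz']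
        exact ha0.ne
      set n : ℕ := (-(D z')).toNat with hn
      have hnn : (n : ℤ) = -a := by rw [hn, hDz']; exact Int.toNat_of_nonneg (by omega)
      -- factor `Q`
      obtain ⟨Q', hQ'⟩ : ∃ Q' : ℂ[X], Q = (X - C (J z')) ^ n * Q' :=
        Finset.dvd_prod_of_mem (fun z => (X - C (J z)) ^ (-(D z)).toNat) hz'Z
      have hfac : (fun w => Q.eval (J w)) =
          (fun w => (J w - J z') ^ n) * (fun w => Q'.eval (J w)) := by
        funext w
        simp [hQ']
      have hJsub : AnalyticAt ℂ (fun w => J w - J z') z := (hJ z hz).sub analyticAt_const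
      have h1 : (1 : WithTop ℤ) ≤ meromorphicOrderAt (fun w => J w - J z') z := by
        rw [hJsub.meromorphicOrderAt_eq]
        have hne : analyticOrderAt (fun w => J w - J z') z ≠ 0 := by
          rw [hJsub.analyticOrderAt_ne_zero]
          simp [hJz']
        generalize analyticOrderAt (fun w => J w - J z') z = o at hne
        induction o using ENat.recTopCoe with
        | top => simp
        | coe k =>
          have hk : 1 ≤ k := Nat.one_le_iff_ne_zero.mpr (by simpa using hne)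
          simp only [ENat.map_natCast]
          exact_mod_cast hk
      have hn0 : n ≠ 0 := by
        intro h0
        rw [h0] at hnn
        simp at hnn
        omega
      have hpow : (n : WithTop ℤ) ≤ meromorphicOrderAt (fun w => (J w - J z') ^ n) z := by
        have := meromorphicOrderAt_pow (f := fun w => J w - J z') hJsub.meromorphicAt (n := n)
        have h2 : (fun w => (J w - J z') ^ n) = (fun w => J w - J z') ^ n := rfl
        rw [h2, this]
        generalize meromorphicOrderAt (fun w => J w - J z') z = o at h1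
        induction o using WithTop.recTopCoe with
        | top =>
          rw [WithTop.mul_top (by exact_mod_cast hn0)]
          exact le_top
        | coe k =>
          have hk : (1 : ℤ) ≤ k := by exact_mod_cast h1
          have : (n : ℤ) ≤ n * k := by nlinarith
          exact_mod_cast this
      have hQ'nn : 0 ≤ meromorphicOrderAt (fun w => Q'.eval (J w)) z :=
        (hQJ Q' z hz).meromorphicOrderAt_nonneg
      have hQge : (n : WithTop ℤ) ≤ meromorphicOrderAt (fun w => Q.eval (J w)) z := by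
        have hm := meromorphicOrderAt_mul (f := fun w => (J w - J z') ^ n)
          (g := fun w => Q'.eval (J w)) (hJsub.pow n).meromorphicAt (hQJ Q' z hz).meromorphicAt
        rw [hfac, hm]
        calc (n : WithTop ℤ) = n + 0 := by simp
          _ ≤ _ := add_le_add hpow hQ'nn
      rw [hb]
      calc (0 : WithTop ℤ) ≤ ((b + n : ℤ) : WithTop ℤ) := by
            have : 0 ≤ b + n := by omega
            exact_mod_cast this
        _ = (b : WithTop ℤ) + (n : WithTop ℤ) := by push_cast; rfl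
        _ ≤ _ := add_le_add le_rfl hQge
    · exact add_nonneg (not_lt.mp hneg) hQnn
  refine ⟨Q, toMeromorphicNFOn Ψ U, hQ0, ?_, ?_⟩
  · intro z hz
    rw [← (meromorphicNFOn_toMeromorphicNFOn Ψ U hz).meromorphicOrderAt_nonneg_iff_analyticAt,
      meromorphicOrderAt_toMeromorphicNFOn hΨ hz]
    exact hord z hz
  · have hHan : AnalyticOnNhd ℂ (toMeromorphicNFOn Ψ U) U := by
      intro z hz
      rw [← (meromorphicNFOn_toMeromorphicNFOn Ψ U hz).meromorphicOrderAt_nonneg_iff_analyticAt,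
        meromorphicOrderAt_toMeromorphicNFOn hΨ hz]
      exact hord z hz
    obtain ⟨z₀, hz₀, hGz₀⟩ := hG0
    have hL : AnalyticOnNhd ℂ (fun z => F z * Q.eval (J z)) U := fun z hz =>
      (hF z hz).mul (hQJ Q z hz)
    have hR : AnalyticOnNhd ℂ (fun z => G z * toMeromorphicNFOn Ψ U z) U := fun z hz =>
      (hG z hz).mul (hHan z hz)
    refine hL.eqOn_of_preconnected_of_frequently_eq hR hUc hz₀ ?_
    have hev : ∀ᶠ z in 𝓝[≠] z₀, toMeromorphicNFOn Ψ U z = Ψ z :=
      hΨ.toMeromorphicNFOn_eq_self_on_nhdsNE hz₀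
    have hGne : ∀ᶠ z in 𝓝[≠] z₀, G z ≠ 0 :=
      ((hG z₀ hz₀).continuousAt.eventually_ne hGz₀).filter_mono nhdsWithin_le_nhds
    refine (hev.and hGne).frequently.mono ?_
    rintro z ⟨h1, h2⟩
    rw [h1, hΨdef, hΦdef]
    field_simp

/-- `f / g` has at most a pole of finite order at `i∞`. -/
def MerAtInfty (f g : ℍ → ℂ) : Prop :=
  ∃ (m : ℕ) (C : ℝ), ∀ᶠ τ in atImInfty, ‖Δ τ ^ m * f τ‖ ≤ C * ‖g τ‖

/-- zeros of a nonzero holomorphic function are isolated -/
theorem eventually_ne_zero {g : ℍ → ℂ} (hg : MDiff g) (hg0 : g ≠ 0) (τ : ℍ) :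
    ∀ᶠ z in 𝓝[≠] (τ : ℂ), (g ∘ ofComplex) z ≠ 0 := by
  rcases (HolVal.analyticAt_of_mdiff hg τ).eventually_eq_zero_or_eventually_ne_zero with h | h
  · exact absurd (HolVal.eq_zero_of_eventually hg τ h) hg0
  · exact h

theorem comp_smul_ne_zero {g : ℍ → ℂ} (hg0 : g ≠ 0) (γ : SL(2, ℤ)) :
    (fun τ : ℍ => g (γ • τ)) ≠ 0 := by
  intro h
  apply hg0
  funext τ
  have := congrFun h (γ⁻¹ • τ)
  simpa using this

/-- invariance of the order of `f / g` under `SL(2, ℤ)` -/
theorem meromorphicOrderAt_smul {f g : ℍ → ℂ} (hg : MDiff g) (hg0 : g ≠ 0)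
    (hinv : ∀ (γ : SL(2, ℤ)) (τ : ℍ), f (γ • τ) * g τ = f τ * g (γ • τ))
    (γ : SL(2, ℤ)) (τ : ℍ) :
    meromorphicOrderAt (fun w : ℂ => f (ofComplex w) / g (ofComplex w)) ((γ • τ : ℍ) : ℂ) =
      meromorphicOrderAt (fun w : ℂ => f (ofComplex w) / g (ofComplex w)) (τ : ℂ) := by
  have hdet := HolVal.det_coe_pos' γ
  have h1 := UpperHalfPlane.meromorphicOrderAt_comp_smul (f := fun τ : ℍ => f τ / g τ) (τ := τ)
    (g := (γ : GL (Fin 2) ℝ)) hdet
  have h2 : ((((γ : GL (Fin 2) ℝ) • τ : ℍ)) : ℂ) = ((γ • τ : ℍ) : ℂ) := rfl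
  rw [h2] at h1
  rw [← h1]
  apply meromorphicOrderAt_congr
  have e1 := eventually_ne_zero hg hg0 τ
  have e2 := eventually_ne_zero (HolVal.mdiff_comp_smul γ hg) (comp_smul_ne_zero hg0 γ) τ
  filter_upwards [e1, e2] with z hz1 hz2
  have hz1' : g (ofComplex z) ≠ 0 := hz1
  have hz2' : g (γ • ofComplex z) ≠ 0 := hz2
  show f ((γ : GL (Fin 2) ℝ) • ofComplex z) / g ((γ : GL (Fin 2) ℝ) • ofComplex z) = _
  have h3 : ((γ : GL (Fin 2) ℝ) • ofComplex z : ℍ) = γ • ofComplex z := rfl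
  rw [h3, div_eq_div_iff hz2' hz1']
  exact hinv γ (ofComplex z)

/-- no poles high up -/
theorem meromorphicOrderAt_nonneg_of_bound {f g : ℍ → ℂ} {m : ℕ} {C A : ℝ}
    (hb : ∀ τ : ℍ, A ≤ τ.im → ‖Δ τ ^ m * f τ‖ ≤ C * ‖g τ‖) (τ : ℍ) (hτ : A < τ.im) :
    0 ≤ meromorphicOrderAt (fun w : ℂ => f (ofComplex w) / g (ofComplex w)) (τ : ℂ) := by
  set Φ : ℂ → ℂ := fun w : ℂ => f (ofComplex w) / g (ofComplex w) with hΦ
  set Dm : ℂ → ℂ := fun w => Δ (ofComplex w) ^ m with hDm
  have hDan : AnalyticAt ℂ Dm (τ : ℂ) := by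
    have h1 : MDiff (Δ : ℍ → ℂ) := by
      have := CuspForm.discriminant.holo'
      simpa using this
    exact (HolVal.analyticAt_of_mdiff h1 τ).pow m
  have hDne : Dm (τ : ℂ) ≠ 0 := by
    simp only [hDm, ofComplex_apply]
    exact pow_ne_zero _ (ModularForm.discriminant_ne_zero τ)
  have hord : meromorphicOrderAt (Dm * Φ) (τ : ℂ) = meromorphicOrderAt Φ (τ : ℂ) :=
    meromorphicOrderAt_mul_of_ne_zero hDan hDne
  rw [← hord]
  by_contra hneg
  rw [not_le] at hneg
  have ht := tendsto_cobounded_of_meromorphicOrderAt_neg hneg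
  have hbig := (tendsto_norm_cobounded_atTop.comp ht).eventually_gt_atTop (max C 0)
  have hopen : ∀ᶠ z in 𝓝 (τ : ℂ), A < z.im ∧ 0 < z.im := by
    have h1 : ∀ᶠ z in 𝓝 (τ : ℂ), A < z.im :=
      (Complex.continuous_im.continuousAt).eventually (lt_mem_nhds hτ)
    have h2 : ∀ᶠ z in 𝓝 (τ : ℂ), 0 < z.im :=
      (Complex.continuous_im.continuousAt).eventually (lt_mem_nhds τ.im_pos)
    exact h1.and h2
  have hsmall : ∀ᶠ z in 𝓝[≠] (τ : ℂ), ‖(Dm * Φ) z‖ ≤ max C 0 := by
    filter_upwards [hopen.filter_mono nhdsWithin_le_nhds] with z hz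
    have hzτ : (ofComplex z).im = z.im := by
      rw [ofComplex_apply_of_im_pos hz.2]
      rfl
    have hb' := hb (ofComplex z) (by rw [hzτ]; exact hz.1.le)
    simp only [Pi.mul_apply, hDm, hΦ]
    by_cases hg0 : g (ofComplex z) = 0
    · simp [hg0]
    · have hgpos : 0 < ‖g (ofComplex z)‖ := norm_pos_iff.mpr hg0
      rw [← mul_div_assoc, norm_div, div_le_iff₀ hgpos]
      exact hb'.trans (mul_le_mul_of_nonneg_right (le_max_left _ _) (norm_nonneg _))
  have hF : ∀ᶠ z in 𝓝[≠] (τ : ℂ), False := by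
    filter_upwards [hbig, hsmall] with z h1 h2
    exact absurd h2 (not_le.mpr h1)
  exact hF.exists.elim fun _ h => h


theorem mdiff_discriminant : MDiff (Δ : ℍ → ℂ) := by
  have := CuspForm.discriminant.holo'
  simpa using this

/-- **Pole clearing for level one.** If `f / g` is `SL(2, ℤ)`-invariant and has at most a pole
of finite order at `i∞`, then `f * Q(j) = g * h` with `Q ≠ 0` a polynomial and `h` holomorphic. -/
theorem exists_clear_poles_levelOne {f g : ℍ → ℂ} (hf : MDiff f) (hg : MDiff g) (hg0 : g ≠ 0)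
    (hinv : ∀ (γ : SL(2, ℤ)) (τ : ℍ), f (γ • τ) * g τ = f τ * g (γ • τ))
    (hgr : MerAtInfty f g) :
    ∃ (Q : ℂ[X]) (h : ℍ → ℂ), Q ≠ 0 ∧ MDiff h ∧ ∀ τ : ℍ, f τ * Q.eval (jInv τ) = g τ * h τ := by
  obtain ⟨m, C, hC⟩ := hgr
  obtain ⟨A, hA⟩ := (atImInfty_mem _).mp hC
  have hU : IsOpen upperHalfPlaneSet := isOpen_upperHalfPlaneSet
  have hUc : IsPreconnected upperHalfPlaneSet := (convex_halfSpace_im_gt 0).isPreconnected
  set K : Set ℂ := Set.Icc (-1 / 2 : ℝ) (1 / 2) ×ℂ Set.Icc (1 / 2 : ℝ) (max A 1) with hKdef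
  have hK : IsCompact K := isCompact_Icc.reProdIm isCompact_Icc
  have hKU : K ⊆ upperHalfPlaneSet := by
    intro z hz
    rw [hKdef, Complex.mem_reProdIm] at hz
    have : (1 / 2 : ℝ) ≤ z.im := hz.2.1
    show 0 < z.im
    linarith
  have hFan : AnalyticOnNhd ℂ (f ∘ ofComplex) upperHalfPlaneSet :=
    (UpperHalfPlane.mdifferentiable_iff.mp hf).analyticOnNhd hU
  have hGan : AnalyticOnNhd ℂ (g ∘ ofComplex) upperHalfPlaneSet :=
    (UpperHalfPlane.mdifferentiable_iff.mp hg).analyticOnNhd hU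
  have hJan : AnalyticOnNhd ℂ (jInv ∘ ofComplex) upperHalfPlaneSet :=
    (UpperHalfPlane.mdifferentiable_iff.mp mdifferentiable_jInv).analyticOnNhd hU
  have hG0 : ∃ z ∈ upperHalfPlaneSet, (g ∘ ofComplex) z ≠ 0 := by
    obtain ⟨τ, hτ⟩ : ∃ τ, g τ ≠ 0 := by
      by_contra hcon
      push Not at hcon
      exact hg0 (funext hcon)
    exact ⟨(τ : ℂ), τ.im_pos, by simpa [ofComplex_apply] using hτ⟩
  have hpole : ∀ z ∈ upperHalfPlaneSet,
      meromorphicOrderAt (fun w => (f ∘ ofComplex) w / (g ∘ ofComplex) w) z < 0 →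
      ∃ z' ∈ K, (jInv ∘ ofComplex) z' = (jInv ∘ ofComplex) z ∧
        meromorphicOrderAt (fun w => (f ∘ ofComplex) w / (g ∘ ofComplex) w) z' ≤
          meromorphicOrderAt (fun w => (f ∘ ofComplex) w / (g ∘ ofComplex) w) z := by
    intro z hz hneg
    set τ : ℍ := ⟨z, hz⟩ with hτ
    obtain ⟨γ, hγ⟩ := ModularGroup.exists_smul_mem_fd τ
    have hord := meromorphicOrderAt_smul hg hg0 hinv γ τ
    refine ⟨((γ • τ : ℍ) : ℂ), ?_, ?_, hord.le⟩
    · -- membership in `K`
      have h1 : (1 : ℝ) ≤ Complex.normSq ((γ • τ : ℍ) : ℂ) := hγ.1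
      have h2 : |(γ • τ).re| ≤ 1 / 2 := hγ.2
      have h3 : 0 < (γ • τ).im := (γ • τ).im_pos
      have hre : ((γ • τ : ℍ) : ℂ).re = (γ • τ).re := rfl
      have him : ((γ • τ : ℍ) : ℂ).im = (γ • τ).im := rfl
      rw [Complex.normSq_apply, hre, him] at h1
      rw [abs_le] at h2
      have h4 : (1 / 2 : ℝ) ≤ (γ • τ).im := by nlinarith
      have h5 : (γ • τ).im ≤ A := by
        by_contra hcon
        rw [not_le] at hcon
        have := meromorphicOrderAt_nonneg_of_bound hA (γ • τ) hcon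
        have hneg' : meromorphicOrderAt
            (fun w : ℂ => f (ofComplex w) / g (ofComplex w)) ((γ • τ : ℍ) : ℂ) < 0 := by
          rw [hord]
          exact hneg
        exact absurd this (not_le.mpr hneg')
      rw [hKdef, Complex.mem_reProdIm, hre, him]
      exact ⟨⟨by linarith [h2.1], h2.2⟩, ⟨h4, h5.trans (le_max_left _ _)⟩⟩
    · show jInv (ofComplex ((γ • τ : ℍ) : ℂ)) = jInv (ofComplex z)
      rw [ofComplex_apply, jInv_smul]
      congr 1
      rw [hτ]
      exact (ofComplex_apply ⟨z, hz⟩).symm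
  obtain ⟨Q, H, hQ0, hHan, hEq⟩ := exists_clear_poles hUc hK hKU hFan hGan hJan hG0 hpole
  refine ⟨Q, fun τ => H τ, hQ0, ?_, fun τ => ?_⟩
  · rw [UpperHalfPlane.mdifferentiable_iff]
    refine hHan.differentiableOn.congr fun z hz => ?_
    show H (ofComplex z : ℍ) = H z
    rw [ofComplex_apply_of_im_pos hz]
  · have := hEq (τ : ℂ) τ.im_pos
    simpa [ofComplex_apply] using this


/-- polynomials in `j` are modular functions of level one -/
theorem isModFun_eval_jInv (Q : ℂ[X]) :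
    ModCharPoly.IsModFun 1 (fun τ : ℍ => Q.eval (jInv τ)) := by
  induction Q using Polynomial.induction_on' with
  | add p q hp hq =>
    have := hp.add hq
    convert this using 1
    funext τ
    simp
  | monomial n a =>
    have h1 := (ModCharPoly.IsModFun.const 1 a).mul ((ModCharPoly.isModFun_jInv 1).pow n)
    convert h1 using 1
    funext τ
    simp [Polynomial.eval_monomial]

/-- **Level one.** If `f / g` (`f`, `g` holomorphic on `ℍ`, `g ≠ 0`) is `SL(2, ℤ)`-invariant and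
has at most a pole of finite order at `i∞`, then it is a rational function of `j`. -/
theorem exists_ratfun_levelOne {f g : ℍ → ℂ} (hf : MDiff f) (hg : MDiff g) (hg0 : g ≠ 0)
    (hinv : ∀ (γ : SL(2, ℤ)) (τ : ℍ), f (γ • τ) * g τ = f τ * g (γ • τ))
    (hgr : MerAtInfty f g) :
    ∃ P Q : ℂ[X], Q ≠ 0 ∧ ∀ τ : ℍ, f τ * Q.eval (jInv τ) = g τ * P.eval (jInv τ) := by
  obtain ⟨Q, h, hQ0, hh, hEq⟩ := exists_clear_poles_levelOne hf hg hg0 hinv hgr
  -- invariance of `h`
  have hhinv : ∀ (γ : SL(2, ℤ)) (τ : ℍ), h (γ • τ) = h τ := by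
    intro γ
    have hgγ : MDiff (fun τ : ℍ => g (γ • τ)) := HolVal.mdiff_comp_smul γ hg
    have hhγ : MDiff (fun τ : ℍ => h (γ • τ)) := HolVal.mdiff_comp_smul γ hh
    have hprod : ((fun τ : ℍ => g (γ • τ)) * g) * ((fun τ : ℍ => h (γ • τ)) - h) = 0 := by
      funext τ
      have e1 := hEq (γ • τ)
      rw [jInv_smul] at e1
      have e2 := hEq τ
      have e3 := hinv γ τ
      simp only [Pi.mul_apply, Pi.sub_apply, Pi.zero_apply]
      linear_combination g τ * (-e1) + g (γ • τ) * e2 + (Q.eval (jInv τ)) * e3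
    have hne : (fun τ : ℍ => g (γ • τ)) * g ≠ 0 :=
      HolVal.mul_ne_zero_of_mdiff hgγ hg (comp_smul_ne_zero hg0 γ) hg0
    have hz : (fun τ : ℍ => h (γ • τ)) - h = 0 := by
      by_contra hcon
      exact HolVal.mul_ne_zero_of_mdiff (hgγ.mul hg) (hhγ.sub hh) hne hcon hprod
    intro τ
    have := congrFun hz τ
    simpa [sub_eq_zero] using this
  -- growth of `h`
  obtain ⟨m, C, hC⟩ := hgr
  obtain ⟨A, hA⟩ := (atImInfty_mem _).mp hC
  have hbound : ∀ τ : ℍ, A < τ.im → ‖Δ τ ^ m * h τ‖ ≤ C * ‖Q.eval (jInv τ)‖ := by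
    intro τ hτ
    have hΔan : ContinuousAt (fun w : ℂ => Δ (ofComplex w)) (τ : ℂ) :=
      (HolVal.analyticAt_of_mdiff mdiff_discriminant τ).continuousAt
    have hhan : ContinuousAt (fun w : ℂ => h (ofComplex w)) (τ : ℂ) :=
      (HolVal.analyticAt_of_mdiff hh τ).continuousAt
    have hjan : ContinuousAt (fun w : ℂ => jInv (ofComplex w)) (τ : ℂ) :=
      (HolVal.analyticAt_of_mdiff mdifferentiable_jInv τ).continuousAt
    have hL : Tendsto (fun w : ℂ => ‖Δ (ofComplex w) ^ m * h (ofComplex w)‖) (𝓝[≠] (τ : ℂ))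
        (𝓝 ‖Δ τ ^ m * h τ‖) := by
      have := ((hΔan.pow m).mul hhan).norm
      have h2 := this.tendsto.mono_left (nhdsWithin_le_nhds (s := {(τ : ℂ)}ᶜ))
      simpa [ofComplex_apply] using h2
    have hR : Tendsto (fun w : ℂ => C * ‖Q.eval (jInv (ofComplex w))‖) (𝓝[≠] (τ : ℂ))
        (𝓝 (C * ‖Q.eval (jInv τ)‖)) := by
      have hQc : ContinuousAt (fun w : ℂ => Q.eval (jInv (ofComplex w))) (τ : ℂ) :=
        (Polynomial.continuous Q).continuousAt.comp hjan
      have := (hQc.norm.const_mul C)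
      have h2 := this.tendsto.mono_left (nhdsWithin_le_nhds (s := {(τ : ℂ)}ᶜ))
      simpa [ofComplex_apply] using h2
    refine le_of_tendsto_of_tendsto hL hR ?_
    have hopen : ∀ᶠ z in 𝓝 (τ : ℂ), A < z.im ∧ 0 < z.im := by
      have h1 : ∀ᶠ z in 𝓝 (τ : ℂ), A < z.im :=
        (Complex.continuous_im.continuousAt).eventually (lt_mem_nhds hτ)
      have h2 : ∀ᶠ z in 𝓝 (τ : ℂ), 0 < z.im :=
        (Complex.continuous_im.continuousAt).eventually (lt_mem_nhds τ.im_pos)
      exact h1.and h2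
    filter_upwards [eventually_ne_zero hg hg0 τ, hopen.filter_mono nhdsWithin_le_nhds]
      with z hz1 hz2
    have hz1' : g (ofComplex z) ≠ 0 := hz1
    have hzτ : (ofComplex z).im = z.im := by
      rw [ofComplex_apply_of_im_pos hz2.2]
      rfl
    have hb := hA (ofComplex z) (by rw [hzτ]; exact hz2.1.le)
    have e := hEq (ofComplex z)
    have hgpos : 0 < ‖g (ofComplex z)‖ := norm_pos_iff.mpr hz1'
    have key : ‖Δ (ofComplex z) ^ m * h (ofComplex z)‖ * ‖g (ofComplex z)‖ ≤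
        C * ‖Q.eval (jInv (ofComplex z))‖ * ‖g (ofComplex z)‖ := by
      calc ‖Δ (ofComplex z) ^ m * h (ofComplex z)‖ * ‖g (ofComplex z)‖
          = ‖Δ (ofComplex z) ^ m * f (ofComplex z)‖ * ‖Q.eval (jInv (ofComplex z))‖ := by
            rw [← norm_mul, ← norm_mul]
            congr 1
            linear_combination (-(Δ (ofComplex z) ^ m)) * e
        _ ≤ C * ‖g (ofComplex z)‖ * ‖Q.eval (jInv (ofComplex z))‖ :=
            mul_le_mul_of_nonneg_right hb (norm_nonneg _)
        _ = _ := by ring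
    exact le_of_mul_le_mul_right key hgpos
  obtain ⟨m', hm'⟩ := (isModFun_eval_jInv Q).growth 1
  simp only [one_smul] at hm'
  obtain ⟨B, A', hB⟩ := UpperHalfPlane.isBoundedAtImInfty_iff.mp hm'
  have hbdd : IsBoundedAtImInfty (fun τ : ℍ => Δ τ ^ (m + m') * h τ) := by
    rw [UpperHalfPlane.isBoundedAtImInfty_iff]
    refine ⟨|C| * B, max (A + 1) A', fun τ hτ => ?_⟩
    have h1 : A < τ.im := by linarith [le_max_left (A + 1) A']
    have h2 : A' ≤ τ.im := (le_max_right _ _).trans hτ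
    have hb1 := hbound τ h1
    have hb2 := hB τ h2
    have hB0 : 0 ≤ B := (norm_nonneg _).trans hb2
    calc ‖Δ τ ^ (m + m') * h τ‖ = ‖Δ τ ^ m'‖ * ‖Δ τ ^ m * h τ‖ := by
          rw [← norm_mul]
          congr 1
          ring
      _ ≤ ‖Δ τ ^ m'‖ * (C * ‖Q.eval (jInv τ)‖) :=
          mul_le_mul_of_nonneg_left hb1 (norm_nonneg _)
      _ ≤ ‖Δ τ ^ m'‖ * (|C| * ‖Q.eval (jInv τ)‖) := by
          gcongr
          exact le_abs_self C
      _ = |C| * ‖Δ τ ^ m' * Q.eval (jInv τ)‖ := by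
          rw [norm_mul]
          ring
      _ ≤ |C| * B := mul_le_mul_of_nonneg_left hb2 (abs_nonneg C)
  obtain ⟨P, -, hP⟩ := JSurjPoly.exists_poly_of_invariant hh hhinv (m + m') hbdd
  refine ⟨P, Q, hQ0, fun τ => ?_⟩
  rw [hEq τ, hP τ]
  rfl

end Fermat.Agent.P5.ModFun
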