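/-
P5 block [MODFUN] (owner: helper91), part 2: the growth condition `MerAtInfty`.

* `exists_discriminant_bounds`: `‖q‖ / 2 ≤ ‖Δ‖ ≤ 2 ‖q‖` near `i∞`.
* `MerAtInfty.add/mul/neg/...`: the growth condition is compatible with the field operations
  on quotients.
* `MerAtInfty.of_mem_merCusp`: a quotient `a / b` of two functions of `Lib/CuspLaurent.merCusp h`
  (holomorphic, `h`-periodic, finite order pole at `i∞`), `b ≠ 0`, satisfies `MerAtInfty a b`.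
* `MerAtInfty.of_pow`: `n`-th roots.
-/
import Mathlib
import Fermat.Agent.Lib.CuspLaurent
import Fermat.Agent.Lib.CuspLaurentInv
import Fermat.Agent.Lib.JLocal
import Fermat.Agent.P5.ModFun.LevelOne

set_option autoImplicit false

open Filter Topology UpperHalfPlane
open scoped MatrixGroups Manifold

namespace Fermat.Agent.P5.ModFun

open Fermat.Agent.Lib Fermat.Agent.Lib.CuspLaurent

local notation "Δ" => ModularForm.discriminant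
local notation "𝕢" => Function.Periodic.qParam

/-- `‖q‖ / 2 ≤ ‖Δ‖ ≤ 2 ‖q‖` near `i∞`. -/
theorem eventually_discriminant_bounds :
    ∀ᶠ τ : ℍ in atImInfty, ‖tParam 1 τ‖ / 2 ≤ ‖Δ τ‖ ∧ ‖Δ τ‖ ≤ 2 * ‖tParam 1 τ‖ := by
  have h := JLocal.tendsto_discriminant_div.norm
  rw [norm_one] at h
  have h1 : ∀ᶠ τ : ℍ in atImInfty, (1 / 2 : ℝ) < ‖Δ τ / 𝕢 1 τ‖ :=
    h.eventually (lt_mem_nhds (by norm_num))
  have h2 : ∀ᶠ τ : ℍ in atImInfty, ‖Δ τ / 𝕢 1 τ‖ < 2 :=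
    h.eventually (gt_mem_nhds (by norm_num))
  filter_upwards [h1, h2] with τ h1 h2
  have hq : 0 < ‖𝕢 1 (τ : ℂ)‖ := norm_pos_iff.mpr (Function.Periodic.qParam_ne_zero _)
  rw [norm_div] at h1 h2
  rw [lt_div_iff₀ hq] at h1
  rw [div_lt_iff₀ hq] at h2
  have ht : tParam 1 τ = 𝕢 1 (τ : ℂ) := rfl
  rw [ht]
  constructor <;> linarith

theorem eventually_norm_discriminant_le_one : ∀ᶠ τ : ℍ in atImInfty, ‖Δ τ‖ ≤ 1 := by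
  have h : Tendsto (fun τ : ℍ => ‖Δ τ‖) atImInfty (𝓝 0) := by
    have := (ModularForm.discriminant_isZeroAtImInfty : Tendsto Δ atImInfty (𝓝 0)).norm
    simpa using this
  exact (h.eventually (gt_mem_nhds (by norm_num : (0 : ℝ) < 1))).mono fun τ hτ => hτ.le

theorem norm_tParam_le_one {h : ℝ} (hh : 0 < h) (τ : ℍ) : ‖tParam h τ‖ ≤ 1 :=
  (CuspLaurentSum.norm_tParam_lt_one hh τ).le

theorem norm_tParam_pos (h : ℝ) (τ : ℍ) : 0 < ‖tParam h τ‖ :=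
  norm_pos_iff.mpr (tParam_ne_zero h τ)

/-- `‖Δ‖ ≤ 2 ‖t‖` and `‖t‖ ^ h ≤ 2 ‖Δ‖` near `i∞`, for `t = exp (2πiτ/h)`. -/
theorem eventually_discriminant_tParam (h : ℕ) [NeZero h] :
    ∀ᶠ τ : ℍ in atImInfty, ‖Δ τ‖ ≤ 2 * ‖tParam (h : ℝ) τ‖ ∧
      ‖tParam (h : ℝ) τ‖ ^ h ≤ 2 * ‖Δ τ‖ := by
  have hh : (0 : ℝ) < h := Nat.cast_pos.mpr (NeZero.pos h)
  filter_upwards [eventually_discriminant_bounds] with τ hτ
  have e : tParam 1 τ = tParam (h : ℝ) τ ^ h := by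
    have := CuspLaurentInv.tParam_eq_pow (h := 1) one_pos (NeZero.pos h) τ
    rwa [mul_one] at this
  have h1 := norm_tParam_le_one hh τ
  have h0 := (norm_tParam_pos (h : ℝ) τ).le
  have hpow : ‖tParam 1 τ‖ = ‖tParam (h : ℝ) τ‖ ^ h := by rw [e, norm_pow]
  have hle : ‖tParam (h : ℝ) τ‖ ^ h ≤ ‖tParam (h : ℝ) τ‖ := by
    calc ‖tParam (h : ℝ) τ‖ ^ h ≤ ‖tParam (h : ℝ) τ‖ ^ 1 :=
          pow_le_pow_of_le_one h0 h1 (NeZero.pos h)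
      _ = _ := pow_one _
  rw [hpow] at hτ
  constructor <;> linarith [hτ.1, hτ.2]

/-! ### The growth condition -/

theorem merAtInfty_iff {f g : ℍ → ℂ} :
    MerAtInfty f g ↔ ∃ (m : ℕ) (C : ℝ), ∀ᶠ τ in atImInfty, ‖Δ τ ^ m * f τ‖ ≤ C * ‖g τ‖ :=
  Iff.rfl

theorem MerAtInfty.of_isBounded {f : ℍ → ℂ} {m : ℕ}
    (h : IsBoundedAtImInfty (fun τ : ℍ => Δ τ ^ m * f τ)) : MerAtInfty f 1 := by
  obtain ⟨M, A, hM⟩ := UpperHalfPlane.isBoundedAtImInfty_iff.mp h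
  refine ⟨m, M, (atImInfty_mem _).mpr ⟨A, fun τ hτ => ?_⟩⟩
  simpa using hM τ hτ

theorem MerAtInfty.const (c : ℂ) : MerAtInfty (fun _ : ℍ => c) 1 :=
  ⟨0, ‖c‖, Eventually.of_forall fun τ => by simp⟩

/-- raising the exponent -/
theorem MerAtInfty.exists_ge {f g : ℍ → ℂ} (h : MerAtInfty f g) (m' : ℕ) :
    ∃ (m : ℕ) (C : ℝ), m' ≤ m ∧ 0 ≤ C ∧ ∀ᶠ τ in atImInfty, ‖Δ τ ^ m * f τ‖ ≤ C * ‖g τ‖ := by
  obtain ⟨m, C, hC⟩ := h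
  refine ⟨m + m', max C 0, Nat.le_add_left _ _, le_max_right _ _, ?_⟩
  filter_upwards [hC, eventually_norm_discriminant_le_one] with τ h1 h2
  calc ‖Δ τ ^ (m + m') * f τ‖ = ‖Δ τ‖ ^ m' * ‖Δ τ ^ m * f τ‖ := by
        rw [pow_add, norm_mul, norm_mul, norm_mul, norm_pow, norm_pow]
        ring
    _ ≤ 1 * ‖Δ τ ^ m * f τ‖ :=
        mul_le_mul_of_nonneg_right (pow_le_one₀ (norm_nonneg _) h2) (norm_nonneg _)
    _ = ‖Δ τ ^ m * f τ‖ := one_mul _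
    _ ≤ C * ‖g τ‖ := h1
    _ ≤ max C 0 * ‖g τ‖ := mul_le_mul_of_nonneg_right (le_max_left _ _) (norm_nonneg _)

theorem MerAtInfty.neg {f g : ℍ → ℂ} (h : MerAtInfty f g) : MerAtInfty (-f) g := by
  obtain ⟨m, C, hC⟩ := h
  exact ⟨m, C, hC.mono fun τ hτ => by simpa using hτ⟩

theorem MerAtInfty.mul {f₁ g₁ f₂ g₂ : ℍ → ℂ} (h₁ : MerAtInfty f₁ g₁) (h₂ : MerAtInfty f₂ g₂) :
    MerAtInfty (f₁ * f₂) (g₁ * g₂) := by
  obtain ⟨m₁, C₁, hC₁⟩ := h₁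
  obtain ⟨m₂, C₂, hC₂⟩ := h₂
  refine ⟨m₁ + m₂, C₁ * C₂, ?_⟩
  filter_upwards [hC₁, hC₂] with τ h1 h2
  calc ‖Δ τ ^ (m₁ + m₂) * (f₁ * f₂) τ‖ = ‖Δ τ ^ m₁ * f₁ τ‖ * ‖Δ τ ^ m₂ * f₂ τ‖ := by
        rw [← norm_mul]
        congr 1
        simp only [Pi.mul_apply]
        ring
    _ ≤ (C₁ * ‖g₁ τ‖) * (C₂ * ‖g₂ τ‖) :=
        mul_le_mul h1 h2 (norm_nonneg _) ((norm_nonneg _).trans h1)
    _ = C₁ * C₂ * ‖(g₁ * g₂) τ‖ := by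
        simp only [Pi.mul_apply, norm_mul]
        ring

theorem MerAtInfty.add {f₁ g₁ f₂ g₂ : ℍ → ℂ} (h₁ : MerAtInfty f₁ g₁) (h₂ : MerAtInfty f₂ g₂) :
    MerAtInfty (f₁ * g₂ + f₂ * g₁) (g₁ * g₂) := by
  obtain ⟨m₁, C₁, -, hC₁0, hC₁⟩ := h₁.exists_ge 0
  obtain ⟨m₂, C₂, -, hC₂0, hC₂⟩ := h₂.exists_ge 0
  refine ⟨m₁ + m₂, C₁ + C₂, ?_⟩
  filter_upwards [hC₁, hC₂, eventually_norm_discriminant_le_one] with τ h1 h2 h3
  have e : Δ τ ^ (m₁ + m₂) * (f₁ * g₂ + f₂ * g₁) τ =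
      Δ τ ^ m₂ * (Δ τ ^ m₁ * f₁ τ) * g₂ τ + Δ τ ^ m₁ * (Δ τ ^ m₂ * f₂ τ) * g₁ τ := by
    simp only [Pi.mul_apply, Pi.add_apply]
    ring
  have hp1 : ‖Δ τ ^ m₁‖ ≤ 1 := by rw [norm_pow]; exact pow_le_one₀ (norm_nonneg _) h3
  have hp2 : ‖Δ τ ^ m₂‖ ≤ 1 := by rw [norm_pow]; exact pow_le_one₀ (norm_nonneg _) h3
  calc ‖Δ τ ^ (m₁ + m₂) * (f₁ * g₂ + f₂ * g₁) τ‖
      ≤ ‖Δ τ ^ m₂ * (Δ τ ^ m₁ * f₁ τ) * g₂ τ‖ + ‖Δ τ ^ m₁ * (Δ τ ^ m₂ * f₂ τ) * g₁ τ‖ := by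
        rw [e]; exact norm_add_le _ _
    _ = ‖Δ τ ^ m₂‖ * ‖Δ τ ^ m₁ * f₁ τ‖ * ‖g₂ τ‖ + ‖Δ τ ^ m₁‖ * ‖Δ τ ^ m₂ * f₂ τ‖ * ‖g₁ τ‖ := by
        have n1 : ‖Δ τ ^ m₂ * (Δ τ ^ m₁ * f₁ τ) * g₂ τ‖ =
            ‖Δ τ ^ m₂‖ * ‖Δ τ ^ m₁ * f₁ τ‖ * ‖g₂ τ‖ := by rw [norm_mul, norm_mul]
        have n2 : ‖Δ τ ^ m₁ * (Δ τ ^ m₂ * f₂ τ) * g₁ τ‖ =
            ‖Δ τ ^ m₁‖ * ‖Δ τ ^ m₂ * f₂ τ‖ * ‖g₁ τ‖ := by rw [norm_mul, norm_mul]
        rw [n1, n2]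
    _ ≤ 1 * (C₁ * ‖g₁ τ‖) * ‖g₂ τ‖ + 1 * (C₂ * ‖g₂ τ‖) * ‖g₁ τ‖ := by
        gcongr
    _ = (C₁ + C₂) * ‖(g₁ * g₂) τ‖ := by
        simp only [Pi.mul_apply, norm_mul]
        ring

/-- `n`-th roots: if `f ^ n * b = a * g ^ n` and `a / b` has finite order at `i∞`, then so has
`f / g = (f * b) / (g * b)`. -/
theorem MerAtInfty.of_pow {f g a b : ℍ → ℂ} {n : ℕ} (hn : 0 < n) (h : MerAtInfty a b)
    (heq : ∀ τ : ℍ, f τ ^ n * b τ = a τ * g τ ^ n) : MerAtInfty (f * b) (g * b) := by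
  obtain ⟨m, C, hC⟩ := h
  refine ⟨m, max C 1, ?_⟩
  filter_upwards [hC, eventually_norm_discriminant_le_one] with τ h1 h2
  simp only [Pi.mul_apply]
  by_cases hb : b τ = 0
  · simp [hb]
  have hbpos : 0 < ‖b τ‖ := norm_pos_iff.mpr hb
  have hC1 : (1 : ℝ) ≤ max C 1 := le_max_right _ _
  have hkey : ‖Δ τ ^ m * f τ‖ ≤ max C 1 * ‖g τ‖ := by
    have hnn : 0 ≤ max C 1 * ‖g τ‖ := mul_nonneg (by linarith) (norm_nonneg _)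
    refine le_of_pow_le_pow_left₀ hn.ne' hnn ?_
    -- `‖Δ‖^m ‖f‖^n ≤ C ‖g‖^n`
    have e1 : ‖Δ τ‖ ^ m * ‖f τ‖ ^ n * ‖b τ‖ = ‖Δ τ ^ m * a τ‖ * ‖g τ‖ ^ n := by
      have := congrArg norm (heq τ)
      rw [norm_mul, norm_mul, norm_pow, norm_pow] at this
      rw [norm_mul, norm_pow]
      calc ‖Δ τ‖ ^ m * ‖f τ‖ ^ n * ‖b τ‖ = ‖Δ τ‖ ^ m * (‖f τ‖ ^ n * ‖b τ‖) := by ring
        _ = ‖Δ τ‖ ^ m * (‖a τ‖ * ‖g τ‖ ^ n) := by rw [this]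
        _ = _ := by ring
    have e2 : ‖Δ τ‖ ^ m * ‖f τ‖ ^ n * ‖b τ‖ ≤ C * ‖g τ‖ ^ n * ‖b τ‖ := by
      rw [e1]
      calc ‖Δ τ ^ m * a τ‖ * ‖g τ‖ ^ n ≤ C * ‖b τ‖ * ‖g τ‖ ^ n :=
            mul_le_mul_of_nonneg_right h1 (pow_nonneg (norm_nonneg _) _)
        _ = _ := by ring
    have e3 : ‖Δ τ‖ ^ m * ‖f τ‖ ^ n ≤ C * ‖g τ‖ ^ n := le_of_mul_le_mul_right e2 hbpos
    have hmn : ‖Δ τ‖ ^ (m * n) ≤ ‖Δ τ‖ ^ m := by
      rcases Nat.eq_zero_or_pos m with rfl | hm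
      · simp
      · exact pow_le_pow_of_le_one (norm_nonneg _) h2 (Nat.le_mul_of_pos_right m hn)
    calc ‖Δ τ ^ m * f τ‖ ^ n = ‖Δ τ‖ ^ (m * n) * ‖f τ‖ ^ n := by
          rw [norm_mul, norm_pow, mul_pow, ← pow_mul]
      _ ≤ ‖Δ τ‖ ^ m * ‖f τ‖ ^ n :=
          mul_le_mul_of_nonneg_right hmn (pow_nonneg (norm_nonneg _) _)
      _ ≤ C * ‖g τ‖ ^ n := e3
      _ ≤ max C 1 ^ n * ‖g τ‖ ^ n := by
          refine mul_le_mul_of_nonneg_right ?_ (pow_nonneg (norm_nonneg _) _)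
          exact (le_max_left C 1).trans (le_self_pow₀ hC1 hn.ne')
      _ = (max C 1 * ‖g τ‖) ^ n := (mul_pow _ _ _).symm
  calc ‖Δ τ ^ m * (f τ * b τ)‖ = ‖Δ τ ^ m * f τ‖ * ‖b τ‖ := by
        rw [← norm_mul]; congr 1; ring
    _ ≤ max C 1 * ‖g τ‖ * ‖b τ‖ := mul_le_mul_of_nonneg_right hkey (norm_nonneg _)
    _ = max C 1 * ‖g τ * b τ‖ := by rw [norm_mul]; ring

/-! ### Functions meromorphic at the cusp in the sense of `Lib/CuspLaurent` -/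

/-- upper bound -/
theorem exists_isBounded_of_mem_merCusp {h : ℕ} [NeZero h] {a : ℍ → ℂ} (ha : a ∈ merCusp h) :
    ∃ m : ℕ, IsBoundedAtImInfty (fun τ : ℍ => Δ τ ^ m * a τ) := by
  obtain ⟨k, hk⟩ := (mem_merCusp (h := h)).mp ha |>.exists_bdd
  obtain ⟨M, A, hM⟩ := UpperHalfPlane.isBoundedAtImInfty_iff.mp hk
  obtain ⟨A', hA'⟩ := (atImInfty_mem _).mp (eventually_discriminant_tParam h)
  refine ⟨k, UpperHalfPlane.isBoundedAtImInfty_iff.mpr ⟨2 ^ k * M, max A A', fun τ hτ => ?_⟩⟩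
  have h1 := hM τ ((le_max_left _ _).trans hτ)
  have h2 := (hA' τ ((le_max_right _ _).trans hτ)).1
  simp only [Pi.mul_apply, Pi.pow_apply, norm_mul, norm_pow] at h1
  have h3 : ‖Δ τ‖ ^ k ≤ (2 * ‖tParam (h : ℝ) τ‖) ^ k := pow_le_pow_left₀ (norm_nonneg _) h2 k
  calc ‖Δ τ ^ k * a τ‖ = ‖Δ τ‖ ^ k * ‖a τ‖ := by rw [norm_mul, norm_pow]
    _ ≤ (2 * ‖tParam (h : ℝ) τ‖) ^ k * ‖a τ‖ := mul_le_mul_of_nonneg_right h3 (norm_nonneg _)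
    _ = 2 ^ k * (‖tParam (h : ℝ) τ‖ ^ k * ‖a τ‖) := by rw [mul_pow]; ring
    _ ≤ 2 ^ k * M := mul_le_mul_of_nonneg_left h1 (by positivity)

/-- lower bound for a nonzero holomorphic periodic function bounded at `i∞` -/
theorem exists_lower_bound_of_isHolCusp {h : ℝ} (hh : 0 < h) {f : ℍ → ℂ} (hf : IsHolCusp h f)
    (hf0 : f ≠ 0) :
    ∃ (r : ℕ) (c : ℝ), 0 < c ∧ ∀ᶠ τ : ℍ in atImInfty, c * ‖tParam h τ‖ ^ r ≤ ‖f τ‖ := by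
  have han := hf.analyticAt hh
  have hq : Tendsto (fun τ : ℍ => 𝕢 h τ) atImInfty (𝓝 0) := qParam_tendsto_atImInfty hh
  have heq : ∀ τ : ℍ, cuspFunction h f (𝕢 h τ) = f τ := fun τ =>
    eq_cuspFunction τ hh.ne' hf.per
  have hnz : ¬ ∀ᶠ z in 𝓝 (0 : ℂ), cuspFunction h f z = 0 := by
    intro hz
    apply hf0
    have h1 : ∀ᶠ τ : ℍ in atImInfty, f τ = 0 := by
      have := hq.eventually hz
      exact this.mono fun τ hτ => by rw [← heq τ]; exact hτ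
    obtain ⟨A, hA⟩ := (atImInfty_mem _).mp h1
    set τ₀ : ℍ := ⟨⟨0, max A 0 + 1⟩, by show 0 < max A 0 + 1; positivity⟩ with hτ₀
    have hτ₀im : A < τ₀.im := by
      show A < max A 0 + 1
      linarith [le_max_left A 0]
    apply HolVal.eq_zero_of_eventually hf.holo τ₀
    have hopen : ∀ᶠ z in 𝓝 (τ₀ : ℂ), A < z.im ∧ 0 < z.im := by
      have h1 : ∀ᶠ z in 𝓝 (τ₀ : ℂ), A < z.im :=
        (Complex.continuous_im.continuousAt).eventually (lt_mem_nhds hτ₀im)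
      have h2 : ∀ᶠ z in 𝓝 (τ₀ : ℂ), 0 < z.im :=
        (Complex.continuous_im.continuousAt).eventually (lt_mem_nhds τ₀.im_pos)
      exact h1.and h2
    filter_upwards [hopen] with z hz
    have hzτ : (ofComplex z).im = z.im := by
      rw [ofComplex_apply_of_im_pos hz.2]
      rfl
    exact hA (ofComplex z) (by rw [hzτ]; exact hz.1.le)
  obtain ⟨r, u, hu, hu0, hfu⟩ := (han.exists_eventuallyEq_pow_smul_nonzero_iff).mpr hnz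
  have hu' : ∀ᶠ z in 𝓝 (0 : ℂ), ‖u 0‖ / 2 < ‖u z‖ :=
    (hu.continuousAt.norm).eventually (lt_mem_nhds (by
      have : 0 < ‖u 0‖ := norm_pos_iff.mpr hu0
      linarith))
  refine ⟨r, ‖u 0‖ / 2, by have : 0 < ‖u 0‖ := norm_pos_iff.mpr hu0; linarith, ?_⟩
  filter_upwards [hq.eventually (hfu.and hu')] with τ hτ
  obtain ⟨h1, h2⟩ := hτ
  rw [← heq τ, h1, sub_zero, smul_eq_mul, norm_mul, norm_pow, mul_comm]
  exact mul_le_mul_of_nonneg_left h2.le (pow_nonneg (norm_nonneg _) _)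

/-- lower bound for a nonzero element of `merCusp h` -/
theorem exists_lower_bound_of_mem_merCusp {h : ℕ} [NeZero h] {b : ℍ → ℂ} (hb : b ∈ merCusp h)
    (hb0 : b ≠ 0) :
    ∃ (r : ℕ) (c : ℝ), 0 < c ∧ ∀ᶠ τ : ℍ in atImInfty, c * ‖Δ τ‖ ^ r ≤ ‖b τ‖ := by
  have hh : (0 : ℝ) < h := Nat.cast_pos.mpr (NeZero.pos h)
  have hb' := (mem_merCusp (h := h)).mp hb
  obtain ⟨k, hk⟩ := hb'.exists_bdd
  have hf := hb'.isHolCusp hh hk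
  have hf0 : tParam (h : ℝ) ^ k * b ≠ 0 := by
    intro h0
    apply hb0
    funext τ
    have := congrFun h0 τ
    simp only [Pi.mul_apply, Pi.pow_apply, Pi.zero_apply, mul_eq_zero] at this
    rcases this with h1 | h1
    · exact absurd h1 (pow_ne_zero _ (tParam_ne_zero _ τ))
    · exact h1
  obtain ⟨r, c, hc, hev⟩ := exists_lower_bound_of_isHolCusp hh hf hf0
  refine ⟨r, c / 2 ^ r, by positivity, ?_⟩
  filter_upwards [hev, eventually_discriminant_tParam h] with τ h1 h2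
  have ht1 := norm_tParam_le_one hh τ
  have ht0 := (norm_tParam_pos (h : ℝ) τ).le
  simp only [Pi.mul_apply, Pi.pow_apply, norm_mul, norm_pow] at h1
  have h3 : ‖tParam (h : ℝ) τ‖ ^ k * ‖b τ‖ ≤ ‖b τ‖ :=
    mul_le_of_le_one_left (norm_nonneg _) (pow_le_one₀ ht0 ht1)
  have h4 : ‖Δ τ‖ ^ r ≤ (2 * ‖tParam (h : ℝ) τ‖) ^ r := pow_le_pow_left₀ (norm_nonneg _) h2.1 r
  calc c / 2 ^ r * ‖Δ τ‖ ^ r ≤ c / 2 ^ r * (2 * ‖tParam (h : ℝ) τ‖) ^ r :=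
        mul_le_mul_of_nonneg_left h4 (by positivity)
    _ = c * ‖tParam (h : ℝ) τ‖ ^ r := by
        rw [mul_pow]
        field_simp
    _ ≤ ‖tParam (h : ℝ) τ‖ ^ k * ‖b τ‖ := h1
    _ ≤ ‖b τ‖ := h3

/-- A quotient of two functions which are holomorphic on `ℍ`, `h`-periodic and have at most a
pole of finite order at `i∞` has at most a pole of finite order at `i∞`. -/
theorem MerAtInfty.of_mem_merCusp {h : ℕ} [NeZero h] {a b : ℍ → ℂ} (ha : a ∈ merCusp h)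
    (hb : b ∈ merCusp h) (hb0 : b ≠ 0) : MerAtInfty a b := by
  obtain ⟨m, hm⟩ := exists_isBounded_of_mem_merCusp ha
  obtain ⟨M, A, hM⟩ := UpperHalfPlane.isBoundedAtImInfty_iff.mp hm
  obtain ⟨r, c, hc, hev⟩ := exists_lower_bound_of_mem_merCusp hb hb0
  refine ⟨m + r, M / c, ?_⟩
  filter_upwards [hev, (atImInfty_mem _).mpr ⟨A, hM⟩] with τ h1 h2
  have h2' : ‖Δ τ ^ m * a τ‖ ≤ M := h2
  have hM0 : 0 ≤ M := (norm_nonneg _).trans h2'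
  calc ‖Δ τ ^ (m + r) * a τ‖ = ‖Δ τ‖ ^ r * ‖Δ τ ^ m * a τ‖ := by
        rw [pow_add, norm_mul, norm_mul, norm_mul, norm_pow, norm_pow]
        ring
    _ ≤ ‖Δ τ‖ ^ r * M := mul_le_mul_of_nonneg_left h2' (pow_nonneg (norm_nonneg _) _)
    _ = M / c * (c * ‖Δ τ‖ ^ r) := by field_simp
    _ ≤ M / c * ‖b τ‖ := mul_le_mul_of_nonneg_left h1 (div_nonneg hM0 hc.le)

end Fermat.Agent.P5.ModFun
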