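/-
P5 block [MODFUN] (owner: helper91), part 3: LEVEL `N`, inside `Mer = Frac Hol`
(vocabulary of `P5/Kappa/Plan.lean`).

* `IsMerInf G`: `G ∈ Mer` has at most a pole of finite order at `i∞`.
* `merInf`, `merInfAll`: the subrings of such elements / of elements all of whose
  `SL(2,ℤ)`-translates are such.
* `mem_closure_jMer_of_invariant`: an `SL(2,ℤ)`-invariant element with `IsMerInf` lies in
  `ℂ(j)`.
* `mem_KCMer_of_invariant`: a `Γ₀(N)`-invariant element all of whose translates satisfy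
  `IsMerInf` lies in `ℂ(j, j_N)` (`KCMer N`).
-/
import Mathlib
import Fermat.Agent.P5.Kappa.Basic
import Fermat.Agent.Lib.FixedFieldIndex
import Fermat.Agent.Lib.ModCharPoly
import Fermat.Agent.P5.ModFun.Growth

set_option autoImplicit false

noncomputable section

open Filter Topology UpperHalfPlane Polynomial CongruenceSubgroup
open scoped MatrixGroups Manifold

namespace Fermat.Agent.P5.ModFun

open Fermat.Agent.Lib Fermat.Agent.Lib.JStab Fermat.Agent.Lib.HolVal Fermat.Agent.P5.Kappa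

local notation "Δ" => ModularForm.discriminant

/-! ### Elements of `Mer` with at most a pole of finite order at `i∞` -/

/-- `G ∈ Mer` has at most a pole of finite order at `i∞`. -/
def IsMerInf (G : Mer) : Prop :=
  ∃ a b : Hol, b ≠ 0 ∧ G * algebraMap Hol Mer b = algebraMap Hol Mer a ∧
    MerAtInfty (a : ℍ → ℂ) (b : ℍ → ℂ)

theorem IsMerInf.of_div {a b : Hol} (hb : b ≠ 0) (h : MerAtInfty (a : ℍ → ℂ) (b : ℍ → ℂ)) :
    IsMerInf (algebraMap Hol Mer a / algebraMap Hol Mer b) := by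
  refine ⟨a, b, hb, ?_, h⟩
  have hb' : algebraMap Hol Mer b ≠ 0 := fun h0 =>
    hb (algebraMap_Hol_injective (by rw [h0, map_zero]))
  field_simp

theorem isMerInf_algebraMap {a : Hol} (h : MerAtInfty (a : ℍ → ℂ) 1) :
    IsMerInf (algebraMap Hol Mer a) :=
  ⟨a, 1, one_ne_zero, by simp, h⟩

/-- The subring of elements of `Mer` with at most a pole of finite order at `i∞`. -/
def merInf : Subring Mer where
  carrier := {G | IsMerInf G}
  zero_mem' := ⟨0, 1, one_ne_zero, by simp, MerAtInfty.const 0⟩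
  one_mem' := ⟨1, 1, one_ne_zero, by simp, MerAtInfty.const 1⟩
  add_mem' := by
    rintro G₁ G₂ ⟨a₁, b₁, hb₁, e₁, m₁⟩ ⟨a₂, b₂, hb₂, e₂, m₂⟩
    refine ⟨a₁ * b₂ + a₂ * b₁, b₁ * b₂, mul_ne_zero hb₁ hb₂, ?_, m₁.add m₂⟩
    simp only [map_mul, map_add]
    linear_combination (algebraMap Hol Mer b₂) * e₁ + (algebraMap Hol Mer b₁) * e₂
  mul_mem' := by
    rintro G₁ G₂ ⟨a₁, b₁, hb₁, e₁, m₁⟩ ⟨a₂, b₂, hb₂, e₂, m₂⟩
    refine ⟨a₁ * a₂, b₁ * b₂, mul_ne_zero hb₁ hb₂, ?_, m₁.mul m₂⟩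
    simp only [map_mul]
    linear_combination (G₂ * algebraMap Hol Mer b₂) * e₁ + (algebraMap Hol Mer a₁) * e₂
  neg_mem' := by
    rintro G ⟨a, b, hb, e, m⟩
    refine ⟨-a, b, hb, ?_, m.neg⟩
    simp only [map_neg]
    linear_combination -e

theorem mem_merInf {G : Mer} : G ∈ merInf ↔ IsMerInf G := Iff.rfl

/-- The subring of elements of `Mer` all of whose `SL(2,ℤ)`-translates have at most a pole of
finite order at `i∞`. -/
def merInfAll : Subring Mer := ⨅ γ : SL(2, ℤ), merInf.comap (compMer γ)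

theorem mem_merInfAll {G : Mer} : G ∈ merInfAll ↔ ∀ γ : SL(2, ℤ), IsMerInf (compMer γ G) := by
  simp [merInfAll, Subring.mem_iInf, mem_merInf]

theorem compMer_mem_merInfAll {G : Mer} (hG : G ∈ merInfAll) (γ : SL(2, ℤ)) :
    compMer γ G ∈ merInfAll := by
  rw [mem_merInfAll] at hG ⊢
  intro γ'
  rw [← compMer_mul]
  exact hG _

theorem constMer_mem_merInfAll (c : ℂ) : constMer c ∈ merInfAll := by
  rw [mem_merInfAll]
  intro γ
  rw [compMer_constMer]
  exact isMerInf_algebraMap (MerAtInfty.const c)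

/-- `n`-th roots. -/
theorem IsMerInf.of_pow {G : Mer} {n : ℕ} (hn : 0 < n) (h : IsMerInf (G ^ n)) : IsMerInf G := by
  obtain ⟨a, b, hb, e, m⟩ := h
  obtain ⟨f, g, hg, rfl⟩ := exists_eq_div G
  have hg' : algebraMap Hol Mer g ≠ 0 := fun h0 =>
    hg (algebraMap_Hol_injective (by rw [h0, map_zero]))
  have hb' : algebraMap Hol Mer b ≠ 0 := fun h0 =>
    hb (algebraMap_Hol_injective (by rw [h0, map_zero]))
  have e' : f ^ n * b = a * g ^ n := by
    apply algebraMap_Hol_injective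
    rw [map_mul, map_mul, map_pow, map_pow, ← e, div_pow]
    field_simp
  have hpt : ∀ τ : ℍ, (f : ℍ → ℂ) τ ^ n * (b : ℍ → ℂ) τ = (a : ℍ → ℂ) τ * (g : ℍ → ℂ) τ ^ n := by
    intro τ
    have := congrFun (congrArg Subtype.val e') τ
    simpa using this
  refine ⟨f * b, g * b, mul_ne_zero hg hb, ?_, m.of_pow hn hpt⟩
  rw [map_mul, map_mul]
  field_simp

/-! ### The `j`-functions in `Mer` -/

/-- `j` as a holomorphic function. -/
def jHol : Hol := ⟨jInv, mdifferentiable_jInv⟩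

/-- `j(Nτ)` as a holomorphic function. -/
def jNHol (N : ℕ) [NeZero N] : Hol := ⟨jN N, mdifferentiable_jN N⟩

@[simp] theorem coe_jHol : ((jHol : Hol) : ℍ → ℂ) = jInv := rfl

@[simp] theorem coe_jNHol (N : ℕ) [NeZero N] : ((jNHol N : Hol) : ℍ → ℂ) = jN N := rfl

/-- `j` in `Mer`. -/
def jMer : Mer := algebraMap Hol Mer jHol

/-- `j(Nτ)` in `Mer`. -/
def jNMer (N : ℕ) [NeZero N] : Mer := algebraMap Hol Mer (jNHol N)

/-- evaluation at a point, as a ring hom -/
def evalHol (τ : ℍ) : Hol →+* ℂ where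
  toFun f := (f : ℍ → ℂ) τ
  map_one' := rfl
  map_mul' _ _ := rfl
  map_zero' := rfl
  map_add' _ _ := rfl

theorem eval₂_constHol_jHol_apply (P : ℂ[X]) (τ : ℍ) :
    ((P.eval₂ constHol jHol : Hol) : ℍ → ℂ) τ = P.eval (jInv τ) := by
  have h := Polynomial.hom_eval₂ P constHol (evalHol τ) jHol
  have h2 : (evalHol τ).comp constHol = RingHom.id ℂ := by
    ext c
    rfl
  rw [h2, Polynomial.eval₂_id] at h
  exact h

theorem algebraMap_eval₂_constHol (P : ℂ[X]) (x : Hol) :
    algebraMap Hol Mer (P.eval₂ constHol x) = P.eval₂ constMer (algebraMap Hol Mer x) :=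
  Polynomial.hom_eval₂ P constHol (algebraMap Hol Mer) x

theorem eval₂_jHol_ne_zero {Q : ℂ[X]} (hQ : Q ≠ 0) : Q.eval₂ constHol jHol ≠ 0 := by
  intro h0
  apply hQ
  apply Polynomial.funext
  intro c
  obtain ⟨τ, hτ⟩ := JSurjPoly.jF_surjective c
  have hτ' : jInv τ = c := hτ
  have := eval₂_constHol_jHol_apply Q τ
  rw [h0, hτ'] at this
  rw [Polynomial.eval_zero, ← this]
  rfl

theorem eval₂_mem_closure {S : Subfield Mer} (hc : ∀ c : ℂ, constMer c ∈ S) {x : Mer}
    (hx : x ∈ S) (P : ℂ[X]) : P.eval₂ constMer x ∈ S := by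
  rw [Polynomial.eval₂_eq_sum_range]
  exact S.sum_mem fun i _ => S.mul_mem (hc _) (S.pow_mem hx i)

/-- **Level one, in `Mer`**: an `SL(2,ℤ)`-invariant element with at most a pole of finite order
at `i∞` lies in `ℂ(j)`. -/
theorem mem_closure_jMer_of_invariant {G : Mer} (hinv : ∀ γ : SL(2, ℤ), compMer γ G = G)
    (hG : IsMerInf G) : G ∈ Subfield.closure (Set.range constMer ∪ {jMer}) := by
  obtain ⟨a, b, hb, e, m⟩ := hG
  have hb' : algebraMap Hol Mer b ≠ 0 := fun h0 =>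
    hb (algebraMap_Hol_injective (by rw [h0, map_zero]))
  have hb0 : (b : ℍ → ℂ) ≠ 0 := fun h0 => hb (Subtype.ext h0)
  have hinv' : ∀ (γ : SL(2, ℤ)) (τ : ℍ),
      (a : ℍ → ℂ) (γ • τ) * (b : ℍ → ℂ) τ = (a : ℍ → ℂ) τ * (b : ℍ → ℂ) (γ • τ) := by
    intro γ τ
    have h1 : compMer γ G * algebraMap Hol Mer (compHom γ b) = algebraMap Hol Mer (compHom γ a) := by
      rw [← compMer_algebraMap, ← compMer_algebraMap, ← map_mul, e]
    rw [hinv γ] at h1
    have h2 : compHom γ a * b = a * compHom γ b := by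
      apply algebraMap_Hol_injective
      rw [map_mul, map_mul, ← h1, ← e]
      ring
    have := congrFun (congrArg Subtype.val h2) τ
    simpa using this
  obtain ⟨P, Q, hQ, hPQ⟩ := exists_ratfun_levelOne a.2 b.2 hb0 hinv' m
  have hQ0 := eval₂_jHol_ne_zero hQ
  have hQ' : algebraMap Hol Mer (Q.eval₂ constHol jHol) ≠ 0 := fun h0 =>
    hQ0 (algebraMap_Hol_injective (by rw [h0, map_zero]))
  have h3 : a * Q.eval₂ constHol jHol = b * P.eval₂ constHol jHol := by
    apply Subtype.ext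
    funext τ
    show (a : ℍ → ℂ) τ * ((Q.eval₂ constHol jHol : Hol) : ℍ → ℂ) τ =
      (b : ℍ → ℂ) τ * ((P.eval₂ constHol jHol : Hol) : ℍ → ℂ) τ
    rw [eval₂_constHol_jHol_apply, eval₂_constHol_jHol_apply]
    exact hPQ τ
  have h4 : G = algebraMap Hol Mer (P.eval₂ constHol jHol) /
      algebraMap Hol Mer (Q.eval₂ constHol jHol) := by
    rw [eq_div_iff hQ']
    have h5 := congrArg (algebraMap Hol Mer) h3
    rw [map_mul, map_mul, ← e] at h5
    have h6 : algebraMap Hol Mer b * (G * algebraMap Hol Mer (Q.eval₂ constHol jHol)) =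
        algebraMap Hol Mer b * algebraMap Hol Mer (P.eval₂ constHol jHol) := by
      rw [← h5]
      ring
    exact mul_left_cancel₀ hb' h6
  rw [h4, algebraMap_eval₂_constHol, algebraMap_eval₂_constHol]
  set S := Subfield.closure (Set.range constMer ∪ {jMer}) with hS
  have hc : ∀ c : ℂ, constMer c ∈ S := fun c =>
    Subfield.subset_closure (Or.inl ⟨c, rfl⟩)
  have hj : jMer ∈ S := Subfield.subset_closure (Or.inr rfl)
  exact S.div_mem (eval₂_mem_closure hc hj P) (eval₂_mem_closure hc hj Q)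

/-! ### Level `N` -/

/-- The subfield `ℂ(j, j_N)` of `Mer`. -/
def KCMer (N : ℕ) [NeZero N] : Subfield Mer :=
  Subfield.closure (Set.range constMer ∪ {jMer, jNMer N})

theorem constMer_mem_KCMer (N : ℕ) [NeZero N] (c : ℂ) : constMer c ∈ KCMer N :=
  Subfield.subset_closure (Or.inl ⟨c, rfl⟩)

theorem jMer_mem_KCMer (N : ℕ) [NeZero N] : jMer ∈ KCMer N :=
  Subfield.subset_closure (Or.inr (Or.inl rfl))

theorem jNMer_mem_KCMer (N : ℕ) [NeZero N] : jNMer N ∈ KCMer N :=
  Subfield.subset_closure (Or.inr (Or.inr rfl))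

theorem closure_jMer_le_KCMer (N : ℕ) [NeZero N] :
    Subfield.closure (Set.range constMer ∪ {jMer}) ≤ KCMer N := by
  rw [Subfield.closure_le]
  rintro x (⟨c, rfl⟩ | rfl)
  · exact constMer_mem_KCMer N c
  · exact jMer_mem_KCMer N

/-- The left action `γ • G = G ∘ γ⁻¹` of `SL(2,ℤ)` on `Mer`. -/
@[reducible] def merAction : MulSemiringAction SL(2, ℤ) Mer where
  smul g G := compMer g⁻¹ G
  one_smul G := by
    show compMer (1 : SL(2, ℤ))⁻¹ G = G
    rw [inv_one, compMer_one]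
  mul_smul g h G := by
    show compMer (g * h)⁻¹ G = compMer g⁻¹ (compMer h⁻¹ G)
    rw [mul_inv_rev, compMer_mul]
  smul_zero g := map_zero (compMer g⁻¹)
  smul_add g a b := map_add (compMer g⁻¹) a b
  smul_one g := map_one (compMer g⁻¹)
  smul_mul g a b := map_mul (compMer g⁻¹) a b

theorem compMer_jNMer (N : ℕ) [NeZero N] (γ : SL(2, ℤ)) :
    compMer γ (jNMer N) = algebraMap Hol Mer (compHom γ (jNHol N)) :=
  compMer_algebraMap γ _

theorem jNMer_mem_merInfAll (N : ℕ) [NeZero N] : jNMer N ∈ merInfAll := by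
  rw [mem_merInfAll]
  intro γ
  rw [compMer_jNMer]
  obtain ⟨m, hm⟩ := (ModCharPoly.isModFun_jN (N := N) (d := N) dvd_rfl).growth γ
  exact isMerInf_algebraMap (MerAtInfty.of_isBounded (m := m) hm)

theorem compMer_jNMer_of_mem (N : ℕ) [NeZero N] {γ : SL(2, ℤ)} (hγ : γ ∈ Gamma0 N) :
    compMer γ (jNMer N) = jNMer N := by
  have h1 : compHom γ (jNHol N) = jNHol N := by
    apply Subtype.ext
    funext τ
    rw [compHom_apply, coe_jNHol]
    exact jN_smul_of_mem_self N hγ τ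
  rw [compMer_jNMer, h1, jNMer]

theorem mem_Gamma0_of_compMer_jNMer (N : ℕ) [NeZero N] {γ : SL(2, ℤ)}
    (h : compMer γ (jNMer N) = jNMer N) : γ ∈ Gamma0 N := by
  rw [compMer_jNMer] at h
  have h1 := algebraMap_Hol_injective h
  apply mem_Gamma0_of_jN_smul N γ
  intro τ
  have h2 : ((compHom γ (jNHol N) : Hol) : ℍ → ℂ) τ = ((jNHol N : Hol) : ℍ → ℂ) τ :=
    congrFun (congrArg Subtype.val h1) τ
  rw [compHom_apply, coe_jNHol] at h2
  exact h2

/-- **Level `N`, in `Mer`**: a `Γ₀(N)`-invariant element all of whose `SL(2,ℤ)`-translates have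
at most a pole of finite order at `i∞` lies in `ℂ(j, j_N)`. -/
theorem mem_KCMer_of_invariant (N : ℕ) [NeZero N] {G : Mer}
    (hinv : ∀ γ ∈ Gamma0 N, compMer γ G = G)
    (hgr : ∀ γ : SL(2, ℤ), IsMerInf (compMer γ G)) : G ∈ KCMer N := by
  let _ := merAction
  have hsmul : ∀ (g : SL(2, ℤ)) (F : Mer), g • F = compMer g⁻¹ F := fun _ _ => rfl
  have hR : ∀ (g : SL(2, ℤ)), ∀ r ∈ merInfAll, g • r ∈ merInfAll := fun g r hr => by
    rw [hsmul]
    exact compMer_mem_merInfAll hr _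
  obtain ⟨P, D, hP, hD, hD0, hPD⟩ := FixedFieldIndex.exists_trace_formula (Gamma0 N) merInfAll hR
    (jNMer N) G (jNMer_mem_merInfAll N) (mem_merInfAll.mpr hgr)
    (fun h hh => by rw [hsmul]; exact compMer_jNMer_of_mem N (inv_mem hh))
    (fun h hh => by rw [hsmul]; exact hinv _ (inv_mem hh))
    (fun g hg => by
      rw [hsmul] at hg
      have := mem_Gamma0_of_compMer_jNMer N hg
      simpa using inv_mem this)
  have hcoeff : ∀ c : Mer, c ∈ merInfAll → (∀ g : SL(2, ℤ), g • c = c) → c ∈ KCMer N := by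
    intro c hc hfix
    apply closure_jMer_le_KCMer N
    apply mem_closure_jMer_of_invariant
    · intro γ
      have := hfix γ⁻¹
      rwa [hsmul, inv_inv] at this
    · have := mem_merInfAll.mp hc 1
      rwa [compMer_one] at this
  have heval : ∀ Q : Polynomial Mer, (∀ i, Q.coeff i ∈ merInfAll ∧
      ∀ g : SL(2, ℤ), g • Q.coeff i = Q.coeff i) → Q.eval (jNMer N) ∈ KCMer N := by
    intro Q hQ
    rw [Polynomial.eval_eq_sum_range]
    exact (KCMer N).sum_mem fun i _ =>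
      (KCMer N).mul_mem (hcoeff _ (hQ i).1 (hQ i).2) ((KCMer N).pow_mem (jNMer_mem_KCMer N) i)
  have hG : G = P.eval (jNMer N) / D.eval (jNMer N) := by
    rw [eq_div_iff hD0, hPD]
  rw [hG]
  exact (KCMer N).div_mem (heval P hP) (heval D hD)

end Fermat.Agent.P5.ModFun
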