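/-
P5 — block [MODFUN] (owner helper91), leaf `realC` (helper50): the realisation of
`K_C = laurentBaseChange ℂ (modularFunctionFieldFull N)` (the function field of `X₀(N)` over `ℂ`)
by meromorphic functions on `ℍ`: a series goes to the function with that `q`-expansion.

Exports (contract of #2163):
* `merCuspToHol`, `merCuspToMer` : `merCusp 1 ⊆ Hol → Mer`;
* `embC N : K_C →+* Mer` with `embC_spec`;
* `realC N : Kappa.Realisation ℂ K_C (Gamma0 N)`, `realC_iota`, `realC_emb_spec`, `realC_emb_gen`,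
  `realC_emb_baseMap`, `realC_emb_injective`, `realC_emb_algebraMap`, `realC_comp_emb`;
* `exists_merCusp_div` : every element of `K_C` is a quotient of two elements of `merCusp 1`.
-/
import Mathlib
import Fermat.Agent.P5.Kappa.Plan
import Fermat.Agent.P5.Desc.BaseChange
import Fermat.Agent.S24.Bridge
import Fermat.Agent.Lib.FFBridge
import Fermat.Agent.Lib.FFBridgeK

set_option autoImplicit false

noncomputable section

namespace Fermat.Agent.P5.ModFun

open UpperHalfPlane ModularCurve CongruenceSubgroup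
open Fermat.Agent.S24 Fermat.Agent.Lib Fermat.Agent.Lib.HolVal Fermat.Agent.Lib.JStab
open Fermat.Agent.Lib.CuspLaurent Fermat.Agent.P5.Kappa
open scoped MatrixGroups Manifold

/-! ### `merCusp 1 ⊆ Hol → Mer` -/

theorem merCusp_le_Hol (h : ℕ) [NeZero h] : merCusp h ≤ Hol := fun _ hf => hf.holo

/-- `merCusp 1 → Hol`. -/
def merCuspToHol : ↥(merCusp 1) →+* Hol := Subring.inclusion (merCusp_le_Hol 1)

@[simp] theorem coe_merCuspToHol (r : ↥(merCusp 1)) :
    ((merCuspToHol r : Hol) : ℍ → ℂ) = (r : ℍ → ℂ) := rfl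

theorem merCuspToHol_injective : Function.Injective merCuspToHol :=
  Subring.inclusion_injective _

/-- `merCusp 1 → Mer`. -/
def merCuspToMer : ↥(merCusp 1) →+* Mer := (algebraMap Hol Mer).comp merCuspToHol

theorem merCuspToMer_apply (r : ↥(merCusp 1)) :
    merCuspToMer r = algebraMap Hol Mer (merCuspToHol r) := rfl

theorem merCuspToMer_injective : Function.Injective merCuspToMer :=
  (IsFractionRing.injective Hol Mer).comp merCuspToHol_injective

/-! ### The embedding `K_C → Mer` -/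

theorem embC_exists (N : ℕ) [NeZero N] :
    ∃ Θ : ↥(laurentBaseChange ℂ (modularFunctionFieldFull N)) →+* Mer,
      ∀ (x : ↥(laurentBaseChange ℂ (modularFunctionFieldFull N))) (r : ↥(merCusp 1)),
        laurent 1 r = (x : LaurentSeries ℂ) → Θ x = merCuspToMer r :=
  FFBridgeK.exists_ringHom (K := ℂ) N (c := RingHom.id (LaurentSeries ℂ)) (e := laurent 1)
    (fun _ _ h => h) (laurent_injective 1) merCuspToMer merCuspToMer_injective
    (fun a => ⟨⟨fun _ => a, const_mem_merCusp 1 a⟩, by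
      rw [RingHom.id_apply, FFBridgeK.algebraMap_eq_C]
      exact laurent_const 1 a⟩)
    (fun d _ _ => ⟨⟨jN d, bridge_jN_mem_merCusp d⟩, by
      rw [RingHom.id_apply, FFBridgeK.gen_eq_jqNModC]
      exact bridge_laurent_jN d⟩)

/-- The function on `ℍ` of an element of `K_C`: a series goes to the meromorphic function with
that `q`-expansion. -/
def embC (N : ℕ) [NeZero N] : ↥(laurentBaseChange ℂ (modularFunctionFieldFull N)) →+* Mer :=
  (embC_exists N).choose

theorem embC_spec (N : ℕ) [NeZero N] (x : ↥(laurentBaseChange ℂ (modularFunctionFieldFull N)))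
    (r : ↥(merCusp 1)) (h : laurent 1 r = (x : LaurentSeries ℂ)) :
    embC N x = merCuspToMer r :=
  (embC_exists N).choose_spec x r h

theorem embC_algebraMap (N : ℕ) [NeZero N] (c : ℂ) :
    embC N (algebraMap ℂ ↥(laurentBaseChange ℂ (modularFunctionFieldFull N)) c) = constMer c := by
  rw [embC_spec N _ ⟨fun _ => c, const_mem_merCusp 1 c⟩ ?_]
  · rfl
  · rw [laurent_const]
    exact (FFBridgeK.algebraMap_eq_C c).symm

theorem embC_gen (N : ℕ) [NeZero N] (d : ℕ) [NeZero d] (hd : d ∣ N) :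
    embC N ⟨FFBridgeK.gen ℂ d, FFBridgeK.gen_mem hd⟩ =
      algebraMap Hol Mer ⟨jN d, mdifferentiable_jN d⟩ := by
  rw [embC_spec N _ ⟨jN d, bridge_jN_mem_merCusp d⟩ ?_]
  · rfl
  · rw [bridge_laurent_jN]
    exact (FFBridgeK.gen_eq_jqNModC d).symm

theorem compHom_jN (N : ℕ) [NeZero N] {d : ℕ} [NeZero d] (hd : d ∣ N) {γ : SL(2, ℤ)}
    (hγ : γ ∈ Gamma0 N) :
    compHom γ ⟨jN d, mdifferentiable_jN d⟩ = ⟨jN d, mdifferentiable_jN d⟩ := by
  apply Subtype.ext
  funext z
  exact jN_smul_of_mem hd hγ z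

theorem compMer_embC (N : ℕ) [NeZero N] {γ : SL(2, ℤ)} (hγ : γ ∈ Gamma0 N)
    (f : ↥(laurentBaseChange ℂ (modularFunctionFieldFull N))) :
    compMer γ (embC N f) = embC N f := by
  have key : (compMer γ).comp (embC N) = embC N := by
    refine FFBridgeK.ringHom_ext N _ _ (fun a => ?_) (fun d _ hd => ?_)
    · rw [RingHom.comp_apply, embC_algebraMap, compMer_constMer]
    · rw [RingHom.comp_apply, embC_gen N d hd, compMer_algebraMap, compHom_jN N hd hγ]
  exact congrArg (fun φ : ↥(laurentBaseChange ℂ (modularFunctionFieldFull N)) →+* Mer => φ f) key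

/-! ### The realisation -/

/-- **The realisation of `K_C / ℂ`** (the function field of `X₀(N)` over `ℂ`) on `ℍ`. -/
def realC (N : ℕ) [NeZero N] :
    Kappa.Realisation ℂ ↥(laurentBaseChange ℂ (modularFunctionFieldFull N)) (Gamma0 N) where
  emb := embC N
  iota := RingHom.id ℂ
  emb_algebraMap := embC_algebraMap N
  comp_emb := fun _ hγ f => compMer_embC N hγ f

theorem realC_iota (N : ℕ) [NeZero N] : (realC N).iota = RingHom.id ℂ := rfl

theorem realC_emb (N : ℕ) [NeZero N] : (realC N).emb = embC N := rfl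

/-- `realC` sends a series to the function with that `q`-expansion. -/
theorem realC_emb_spec (N : ℕ) [NeZero N]
    (x : ↥(laurentBaseChange ℂ (modularFunctionFieldFull N))) (r : ↥(merCusp 1))
    (h : laurent 1 r = (x : LaurentSeries ℂ)) :
    (realC N).emb x = algebraMap Hol Mer ⟨r, r.2.holo⟩ :=
  embC_spec N x r h

theorem realC_emb_gen (N : ℕ) [NeZero N] (d : ℕ) [NeZero d] (hd : d ∣ N) :
    (realC N).emb ⟨coeffEmb ℂ (qExpand ℚ d jq),
        coeffEmb_mem_laurentBaseChange ℂ (jqd_mem_full N hd)⟩ =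
      algebraMap Hol Mer ⟨jN d, mdifferentiable_jN d⟩ :=
  embC_gen N d hd

theorem realC_emb_algebraMap (N : ℕ) [NeZero N] (c : ℂ) :
    (realC N).emb (algebraMap ℂ ↥(laurentBaseChange ℂ (modularFunctionFieldFull N)) c) =
      constMer c :=
  embC_algebraMap N c

theorem realC_comp_emb (N : ℕ) [NeZero N] {γ : SL(2, ℤ)} (hγ : γ ∈ Gamma0 N)
    (f : ↥(laurentBaseChange ℂ (modularFunctionFieldFull N))) :
    compMer γ ((realC N).emb f) = (realC N).emb f :=
  compMer_embC N hγ f

theorem realC_emb_injective (N : ℕ) [NeZero N] : Function.Injective (realC N).emb :=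
  (realC N).emb.injective

/-- Compatibility with the realisation of `F_N / Q̄`: the function of the base change of
`y ∈ F_N` is the function of `y`. -/
theorem realC_emb_baseMap (N : ℕ) [NeZero N] (y : FN N) :
    (realC N).emb (Desc.baseMap Basic.iota (modularFunctionFieldFull N) y) = embMer N y := by
  have key : (embC N).comp (Desc.baseMap Basic.iota (modularFunctionFieldFull N)) = embMer N := by
    refine FFBridge.ringHom_ext N _ _ (fun a => ?_) (fun d _ hd => ?_)
    · rw [RingHom.comp_apply, Desc.baseMap_algebraMap, embC_algebraMap, Kappa.embMer_algebraMap]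
    · rw [RingHom.comp_apply]
      have h1 : embC N (Desc.baseMap Basic.iota (modularFunctionFieldFull N)
          ⟨FFBridge.gen d, FFBridge.gen_mem hd⟩) = merCuspToMer ⟨jN d, bridge_jN_mem_merCusp d⟩ := by
        apply embC_spec
        rw [bridge_laurent_jN, Desc.coe_baseMap]
        exact (FFBridge.coeffMap_gen Basic.iota d).symm
      have h2 : embMer N ⟨FFBridge.gen d, FFBridge.gen_mem hd⟩ =
          algebraMap Hol Mer (rnToHol N (jNR N hd)) := by
        rw [embMer_apply]
        have : (⟨FFBridge.gen d, FFBridge.gen_mem hd⟩ : FN N) = jBarLevel N d hd := rfl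
        rw [this, embFN_jBarLevel, mnToMer_algebraMap]
      rw [h1, h2]
      rfl
  exact congrArg (fun φ : FN N →+* Mer => φ y) key

/-- Every element of `K_C` is the quotient of two elements of `merCusp 1` (holomorphic on `ℍ`,
`1`-periodic, finite-order pole at `i∞`), compatibly with `q`-expansions. -/
theorem exists_merCusp_div (N : ℕ) [NeZero N]
    (x : ↥(laurentBaseChange ℂ (modularFunctionFieldFull N))) :
    ∃ a b : ↥(merCusp 1), b ≠ 0 ∧
      laurent 1 b * (x : LaurentSeries ℂ) = laurent 1 a ∧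
      (realC N).emb x * algebraMap Hol Mer ⟨b, b.2.holo⟩ = algebraMap Hol Mer ⟨a, a.2.holo⟩ := by
  obtain ⟨a₀, ha₀, b₀, hb₀, hb0, hx⟩ := FFBridgeK.exists_div_eq ℂ N x.2
  have hconst : ∀ c : ℂ, ∃ r : ↥(merCusp 1),
      laurent 1 r = RingHom.id (LaurentSeries ℂ) (algebraMap ℂ (LaurentSeries ℂ) c) := fun c =>
    ⟨⟨fun _ => c, const_mem_merCusp 1 c⟩, by
      rw [RingHom.id_apply, FFBridgeK.algebraMap_eq_C]
      exact laurent_const 1 c⟩
  have hgen : ∀ (d : ℕ) [NeZero d], d ∣ N → ∃ r : ↥(merCusp 1),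
      laurent 1 r = RingHom.id (LaurentSeries ℂ) (FFBridgeK.gen ℂ d) := fun d _ _ =>
    ⟨⟨jN d, bridge_jN_mem_merCusp d⟩, by
      rw [RingHom.id_apply, FFBridgeK.gen_eq_jqNModC]
      exact bridge_laurent_jN d⟩
  obtain ⟨a, ha⟩ := FFBridgeK.exists_eq_of_mem_adjoin N _ _ hconst hgen ha₀
  obtain ⟨b, hb⟩ := FFBridgeK.exists_eq_of_mem_adjoin N _ _ hconst hgen hb₀
  rw [RingHom.id_apply] at ha hb
  have hb' : b ≠ 0 := by
    rintro rfl
    rw [map_zero] at hb
    exact hb0 hb.symm
  have hmul : laurent 1 b * (x : LaurentSeries ℂ) = laurent 1 a := by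
    rw [ha, hb, hx]
    field_simp
  refine ⟨a, b, hb', hmul, ?_⟩
  -- `a₀`, `b₀` as elements of `K_C`
  have hle : Algebra.adjoin ℂ (FFBridgeK.genSet ℂ N) ≤
      (laurentBaseChange ℂ (modularFunctionFieldFull N)).toSubalgebra := by
    rw [FFBridgeK.laurentBaseChange_eq_adjoin]
    exact IntermediateField.algebra_adjoin_le_adjoin ℂ _
  have ha₁ : a₀ ∈ laurentBaseChange ℂ (modularFunctionFieldFull N) := hle ha₀
  have hb₁ : b₀ ∈ laurentBaseChange ℂ (modularFunctionFieldFull N) := hle hb₀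
  have hea : (realC N).emb ⟨a₀, ha₁⟩ = algebraMap Hol Mer ⟨a, a.2.holo⟩ :=
    realC_emb_spec N _ a ha
  have heb : (realC N).emb ⟨b₀, hb₁⟩ = algebraMap Hol Mer ⟨b, b.2.holo⟩ :=
    realC_emb_spec N _ b hb
  have hxb : x * ⟨b₀, hb₁⟩ = ⟨a₀, ha₁⟩ := by
    apply Subtype.ext
    show (x : LaurentSeries ℂ) * b₀ = a₀
    rw [hx]
    field_simp
  rw [← hea, ← heb, ← map_mul, hxb]

end Fermat.Agent.P5.ModFun
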