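/-
P5 — block [MODFUN] (owner helper91), closing leaves on top of `realC` (helper50).

* `RealC.KCMer_le_fieldRange`     : `ℂ(j, j_N) ⊆ Mer` lies in the image of `K_C`;
* `RealC.isMerInf_compMer_emb`    : every `SL(2,ℤ)`-translate of the function of an element of
                                    `K_C` has at most a pole of finite order at `i∞`;
* `RealC.exists_emb_eq_of_invariant` : (MF3) a `Γ₀(N)`-invariant element of `Mer` all of whose
                                    translates are meromorphic at `i∞` is the function of an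
                                    element of `K_C`;
* `RealC.modFunStmt_realC`, `RealC.modFunStmt_realQ` : the [MODFUN] contracts `Kappa.ModFunStmt`
                                    for the realisations over `ℂ` and over `Q̄`.

All names live in the sub-namespace `Fermat.Agent.P5.ModFun.RealC`.
-/
import Mathlib
import Fermat.Agent.P5.ModFun.RealC
import Fermat.Agent.P5.ModFun.LevelN
import Fermat.Agent.Lib.LaurentRoot

set_option autoImplicit false

noncomputable section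

namespace Fermat.Agent.P5.ModFun.RealC

open UpperHalfPlane ModularCurve CongruenceSubgroup
open Fermat.Agent.S24 Fermat.Agent.Lib Fermat.Agent.Lib.HolVal Fermat.Agent.Lib.JStab
open Fermat.Agent.Lib.CuspLaurent Fermat.Agent.P5.Kappa Fermat.Agent.P5.ModFun
open scoped MatrixGroups Manifold

/-! ### `ℂ(j, j_N)` is in the image of `K_C` -/

theorem jMer_mem_fieldRange (N : ℕ) [NeZero N] : jMer ∈ (realC N).emb.fieldRange := by
  refine ⟨⟨coeffEmb ℂ (qExpand ℚ 1 jq), coeffEmb_mem_laurentBaseChange ℂ (jqd_mem_full N (one_dvd N))⟩,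
    ?_⟩
  rw [realC_emb_gen N 1 (one_dvd N), jMer]
  congr 1
  exact Subtype.ext jN_one

theorem jNMer_mem_fieldRange (N : ℕ) [NeZero N] : jNMer N ∈ (realC N).emb.fieldRange :=
  ⟨⟨coeffEmb ℂ (qExpand ℚ N jq), coeffEmb_mem_laurentBaseChange ℂ (jqd_mem_full N dvd_rfl)⟩,
    realC_emb_gen N N dvd_rfl⟩

/-- `ℂ(j, j_N) ⊆ Mer` is contained in the image of `K_C`. -/
theorem KCMer_le_fieldRange (N : ℕ) [NeZero N] : KCMer N ≤ (realC N).emb.fieldRange := by
  rw [KCMer, Subfield.closure_le]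
  rintro x (⟨c, rfl⟩ | rfl | rfl)
  · exact ⟨algebraMap ℂ _ c, realC_emb_algebraMap N c⟩
  · exact jMer_mem_fieldRange N
  · exact jNMer_mem_fieldRange N

/-! ### Translates are meromorphic at `i∞` -/

/-- Functions on `ℍ` all of whose `SL(2,ℤ)`-translates are holomorphic, `N`-periodic, with a pole
of finite order at `i∞`. -/
def transCusp (N : ℕ) [NeZero N] : Subring (ℍ → ℂ) where
  carrier := {f | ∀ γ : SL(2, ℤ), (fun τ => f (γ • τ)) ∈ merCusp N}
  mul_mem' := fun hf hg γ => (merCusp N).mul_mem (hf γ) (hg γ)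
  one_mem' := fun _ => (merCusp N).one_mem
  add_mem' := fun hf hg γ => (merCusp N).add_mem (hf γ) (hg γ)
  zero_mem' := fun _ => (merCusp N).zero_mem
  neg_mem' := fun hf γ => (merCusp N).neg_mem (hf γ)

theorem mem_transCusp {N : ℕ} [NeZero N] {f : ℍ → ℂ} :
    f ∈ transCusp N ↔ ∀ γ : SL(2, ℤ), (fun τ => f (γ • τ)) ∈ merCusp N := Iff.rfl

theorem const_mem_transCusp (N : ℕ) [NeZero N] (c : ℂ) : (fun _ : ℍ => c) ∈ transCusp N :=
  fun _ => const_mem_merCusp N c

theorem jN_mem_transCusp (N : ℕ) [NeZero N] {d : ℕ} (hd : d ∣ N) : jN d ∈ transCusp N :=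
  fun γ => ModRing.RN_le_merCusp N (modGen_mem_RN hd γ)

/-- The ring of holomorphic `1`-periodic functions with a finite-order pole at `i∞` all of whose
translates are meromorphic at the cusps. -/
def cuspRing (N : ℕ) [NeZero N] : Subring (ℍ → ℂ) := merCusp 1 ⊓ transCusp N

/-- The `q`-expansion on `cuspRing N`. -/
def cuspExp (N : ℕ) [NeZero N] : ↥(cuspRing N) →+* LaurentSeries ℂ :=
  (laurent 1).comp (Subring.inclusion inf_le_left)

theorem cuspExp_mk (N : ℕ) [NeZero N] {f : ℍ → ℂ} (hf : f ∈ cuspRing N) :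
    cuspExp N ⟨f, hf⟩ = laurent 1 ⟨f, hf.1⟩ := rfl

theorem cuspExp_exists_const (N : ℕ) [NeZero N] (c : ℂ) :
    ∃ r : ↥(cuspRing N),
      cuspExp N r = RingHom.id (LaurentSeries ℂ) (algebraMap ℂ (LaurentSeries ℂ) c) :=
  ⟨⟨fun _ => c, const_mem_merCusp 1 c, const_mem_transCusp N c⟩, by
    rw [RingHom.id_apply, FFBridgeK.algebraMap_eq_C, cuspExp_mk]
    exact laurent_const 1 c⟩

theorem cuspExp_exists_gen (N : ℕ) [NeZero N] (d : ℕ) [NeZero d] (hd : d ∣ N) :
    ∃ r : ↥(cuspRing N), cuspExp N r = RingHom.id (LaurentSeries ℂ) (FFBridgeK.gen ℂ d) :=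
  ⟨⟨jN d, bridge_jN_mem_merCusp d, jN_mem_transCusp N hd⟩, by
    rw [RingHom.id_apply, FFBridgeK.gen_eq_jqNModC, cuspExp_mk]
    exact bridge_laurent_jN d⟩

/-- Every element of `K_C` is a quotient `a / b` of two elements of `cuspRing N`. -/
theorem exists_cuspRing_div (N : ℕ) [NeZero N]
    (x : ↥(laurentBaseChange ℂ (modularFunctionFieldFull N))) :
    ∃ a b : ↥(cuspRing N), (b : ℍ → ℂ) ≠ 0 ∧
      (realC N).emb x * algebraMap Hol Mer ⟨b, b.2.1.holo⟩ = algebraMap Hol Mer ⟨a, a.2.1.holo⟩ := by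
  obtain ⟨a₀, ha₀, b₀, hb₀, hb0, hx⟩ := FFBridgeK.exists_div_eq ℂ N x.2
  obtain ⟨a, ha⟩ := FFBridgeK.exists_eq_of_mem_adjoin N _ _ (cuspExp_exists_const N)
    (fun d _ hd => cuspExp_exists_gen N d hd) ha₀
  obtain ⟨b, hb⟩ := FFBridgeK.exists_eq_of_mem_adjoin N _ _ (cuspExp_exists_const N)
    (fun d _ hd => cuspExp_exists_gen N d hd) hb₀
  rw [RingHom.id_apply] at ha hb
  have hb' : (b : ℍ → ℂ) ≠ 0 := by
    intro h0
    have hbz : b = 0 := Subtype.ext h0
    rw [hbz, map_zero] at hb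
    exact hb0 hb.symm
  refine ⟨a, b, hb', ?_⟩
  have hle : Algebra.adjoin ℂ (FFBridgeK.genSet ℂ N) ≤
      (laurentBaseChange ℂ (modularFunctionFieldFull N)).toSubalgebra := by
    rw [FFBridgeK.laurentBaseChange_eq_adjoin]
    exact IntermediateField.algebra_adjoin_le_adjoin ℂ _
  have ha₁ : a₀ ∈ laurentBaseChange ℂ (modularFunctionFieldFull N) := hle ha₀
  have hb₁ : b₀ ∈ laurentBaseChange ℂ (modularFunctionFieldFull N) := hle hb₀
  have hea : (realC N).emb ⟨a₀, ha₁⟩ = algebraMap Hol Mer ⟨a, a.2.1.holo⟩ :=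
    realC_emb_spec N _ ⟨a, a.2.1⟩ ha
  have heb : (realC N).emb ⟨b₀, hb₁⟩ = algebraMap Hol Mer ⟨b, b.2.1.holo⟩ :=
    realC_emb_spec N _ ⟨b, b.2.1⟩ hb
  have hxb : x * ⟨b₀, hb₁⟩ = ⟨a₀, ha₁⟩ := by
    apply Subtype.ext
    show (x : LaurentSeries ℂ) * b₀ = a₀
    rw [hx]
    field_simp
  rw [← hea, ← heb, ← map_mul, hxb]

/-- Every `SL(2,ℤ)`-translate of the function of an element of `K_C` has at most a pole of finite
order at `i∞`. -/
theorem isMerInf_compMer_emb (N : ℕ) [NeZero N]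
    (x : ↥(laurentBaseChange ℂ (modularFunctionFieldFull N))) (γ : SL(2, ℤ)) :
    IsMerInf (compMer γ ((realC N).emb x)) := by
  obtain ⟨a, b, hb0, hab⟩ := exists_cuspRing_div N x
  set aH : Hol := ⟨a, a.2.1.holo⟩ with haH
  set bH : Hol := ⟨b, b.2.1.holo⟩ with hbH
  have hbH0 : bH ≠ 0 := fun h => hb0 (congrArg Subtype.val h)
  have hcb0 : compHom γ bH ≠ 0 := fun h => hbH0 (compHom_injective γ (by rw [h, map_zero]))
  have h1 : compMer γ ((realC N).emb x) * algebraMap Hol Mer (compHom γ bH) =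
      algebraMap Hol Mer (compHom γ aH) := by
    rw [← compMer_algebraMap, ← compMer_algebraMap, ← map_mul, hab]
  have hb1 : algebraMap Hol Mer (compHom γ bH) ≠ 0 := fun h =>
    hcb0 (algebraMap_Hol_injective (by rw [h, map_zero]))
  have h2 : compMer γ ((realC N).emb x) =
      algebraMap Hol Mer (compHom γ aH) / algebraMap Hol Mer (compHom γ bH) := by
    rw [eq_div_iff hb1, h1]
  rw [h2]
  refine IsMerInf.of_div hcb0 (MerAtInfty.of_mem_merCusp (h := N) (a.2.2 γ) (b.2.2 γ) ?_)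
  intro h
  exact hcb0 (Subtype.ext h)

theorem emb_mem_merInfAll (N : ℕ) [NeZero N]
    (x : ↥(laurentBaseChange ℂ (modularFunctionFieldFull N))) :
    (realC N).emb x ∈ merInfAll :=
  mem_merInfAll.mpr (isMerInf_compMer_emb N x)

/-! ### (MF3) and the `ModFunStmt` contracts -/

/-- **(MF3)** A `Γ₀(N)`-invariant meromorphic function on `ℍ` all of whose `SL(2,ℤ)`-translates
have at most a pole of finite order at `i∞` is the function of an element of `K_C`. -/
theorem exists_emb_eq_of_invariant (N : ℕ) [NeZero N] (G : Mer)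
    (hinv : ∀ γ ∈ Gamma0 N, compMer γ G = G)
    (hgr : ∀ γ : SL(2, ℤ), IsMerInf (compMer γ G)) :
    ∃ h : ↥(laurentBaseChange ℂ (modularFunctionFieldFull N)), G = (realC N).emb h := by
  obtain ⟨h, hh⟩ := KCMer_le_fieldRange N (mem_KCMer_of_invariant N hinv hgr)
  exact ⟨h, hh.symm⟩

/-- **[MODFUN] over `ℂ`**: a `Γ₀(N)`-invariant meromorphic function with an `n`-th power in `K_C`
lies in `K_C`. -/
theorem modFunStmt_realC (N : ℕ) [NeZero N] : Kappa.ModFunStmt (realC N) := by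
  intro n hn G hinv hf
  obtain ⟨f, hf⟩ := hf
  refine exists_emb_eq_of_invariant N G (fun γ hγ => hinv ⟨γ, hγ⟩) (fun γ => ?_)
  refine IsMerInf.of_pow hn ?_
  rw [← map_pow, hf]
  exact isMerInf_compMer_emb N f γ

/-- **[MODFUN] over `Q̄`**: a `Γ₀(N)`-invariant meromorphic function with an `n`-th power in
`F_N` lies in `F_N`. -/
theorem modFunStmt_realQ (N : ℕ) [NeZero N] : Kappa.ModFunStmt (Kappa.realQ N) := by
  intro n hn G hinv hf
  obtain ⟨f, hf⟩ := hf
  have hf' : G ^ n = (realC N).emb (Desc.baseMap Basic.iota (modularFunctionFieldFull N) f) := by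
    rw [realC_emb_baseMap]
    exact hf
  obtain ⟨g, hg⟩ := modFunStmt_realC N n hn G hinv ⟨_, hf'⟩
  -- `g ^ n = baseMap f` in `K_C`
  have hgn : g ^ n = Desc.baseMap Basic.iota (modularFunctionFieldFull N) f := by
    apply realC_emb_injective N
    rw [map_pow, ← hg, hf']
  have hgn' : (g : LaurentSeries ℂ) ^ n = coeffMap Basic.iota (f : LaurentSeries Kbar) := by
    have := congrArg (fun z : ↥(laurentBaseChange ℂ (modularFunctionFieldFull N)) =>
      (z : LaurentSeries ℂ)) hgn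
    simpa using this
  obtain ⟨g₀, hg₀⟩ := LaurentRoot.mem_range_coeffMap_of_pow Basic.iota n hn
    (g : LaurentSeries ℂ) (f : LaurentSeries Kbar) hgn'
  have hg₀mem : g₀ ∈ laurentBaseChange Kbar (modularFunctionFieldFull N) := by
    apply Desc.mem_laurentBaseChange_of_coeffMap_mem Basic.iota (modularFunctionFieldFull N) g₀
    rw [hg₀]
    exact g.2
  refine ⟨⟨g₀, hg₀mem⟩, ?_⟩
  have hgg : g = Desc.baseMap Basic.iota (modularFunctionFieldFull N) ⟨g₀, hg₀mem⟩ :=
    Subtype.ext hg₀.symm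
  show G = Kappa.embMer N ⟨g₀, hg₀mem⟩
  rw [hg, hgg, realC_emb_baseMap]

end Fermat.Agent.P5.ModFun.RealC
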