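/-
P5 block [MODFUN] (owner: helper91), part 4: the contract `Kappa.ModFunStmt`, PARAMETRIC in a
realisation `R` of `K_C N = ℂ(j(q^d) : d ∣ N) ⊆ ℂ((q))` inside `Mer` which sends the generator
`j(q^d)` to the function `j(dτ)`.

* `merCuspField h`, `merCuspAll h`: the subFIELDS of `Mer` of quotients of holomorphic functions
  meromorphic at the cusp in the parameter `q^{1/h}` (resp. all of whose translates are such).
* `Param.IsStd R`: the realisation `R` of `K_C N` is the standard one.
* `Param.exists_emb_eq_of_invariant`, `Param.modFunStmt_C`, `Param.modFunStmt_realQ`.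
-/
import Mathlib
import Fermat.Agent.P5.ModFun.LevelN
import Fermat.Agent.P5.Desc.BaseChange
import Fermat.Agent.Lib.LaurentRoot
import Fermat.Agent.Lib.FFBridge
import Fermat.Agent.S24.ModRing
import Fermat.Agent.S24.Bridge

set_option autoImplicit false

noncomputable section

open Filter Topology UpperHalfPlane Polynomial CongruenceSubgroup ModularCurve
open scoped MatrixGroups Manifold

namespace Fermat.Agent.P5.ModFun

open Fermat.Agent.Lib Fermat.Agent.Lib.JStab Fermat.Agent.Lib.HolVal Fermat.Agent.P5.Kappa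
open Fermat.Agent.Lib.CuspLaurent Fermat.Agent.S24

/-! ### Quotients of functions meromorphic at the cusp -/

theorem algebraMap_Hol_ne_zero {b : Hol} (hb : b ≠ 0) : algebraMap Hol Mer b ≠ 0 := fun h0 =>
  hb (algebraMap_Hol_injective (by rw [h0, map_zero]))

/-- `G ∈ Mer` is a quotient of two holomorphic functions meromorphic at the cusp in the
parameter `q^{1/h}`. -/
def IsMerCuspQuot (h : ℕ) [NeZero h] (G : Mer) : Prop :=
  ∃ a b : Hol, b ≠ 0 ∧ (a : ℍ → ℂ) ∈ merCusp h ∧ (b : ℍ → ℂ) ∈ merCusp h ∧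
    G * algebraMap Hol Mer b = algebraMap Hol Mer a

theorem IsMerCuspQuot.isMerInf {h : ℕ} [NeZero h] {G : Mer} (hG : IsMerCuspQuot h G) :
    IsMerInf G := by
  obtain ⟨a, b, hb, ha', hb', e⟩ := hG
  refine ⟨a, b, hb, e, MerAtInfty.of_mem_merCusp ha' hb' ?_⟩
  intro h0
  exact hb (Subtype.ext h0)

/-- The subfield of `Mer` of quotients of functions meromorphic at the cusp in `q^{1/h}`. -/
def merCuspField (h : ℕ) [NeZero h] : Subfield Mer where
  carrier := {G | IsMerCuspQuot h G}
  zero_mem' := ⟨0, 1, one_ne_zero, zero_mem _, one_mem _, by simp⟩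
  one_mem' := ⟨1, 1, one_ne_zero, one_mem _, one_mem _, by simp⟩
  add_mem' := by
    rintro G₁ G₂ ⟨a₁, b₁, hb₁, ha₁', hb₁', e₁⟩ ⟨a₂, b₂, hb₂, ha₂', hb₂', e₂⟩
    refine ⟨a₁ * b₂ + a₂ * b₁, b₁ * b₂, mul_ne_zero hb₁ hb₂,
      add_mem (mul_mem ha₁' hb₂') (mul_mem ha₂' hb₁'), mul_mem hb₁' hb₂', ?_⟩
    simp only [map_mul, map_add]
    linear_combination (algebraMap Hol Mer b₂) * e₁ + (algebraMap Hol Mer b₁) * e₂
  mul_mem' := by
    rintro G₁ G₂ ⟨a₁, b₁, hb₁, ha₁', hb₁', e₁⟩ ⟨a₂, b₂, hb₂, ha₂', hb₂', e₂⟩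
    refine ⟨a₁ * a₂, b₁ * b₂, mul_ne_zero hb₁ hb₂, mul_mem ha₁' ha₂', mul_mem hb₁' hb₂', ?_⟩
    simp only [map_mul]
    linear_combination (G₂ * algebraMap Hol Mer b₂) * e₁ + (algebraMap Hol Mer a₁) * e₂
  neg_mem' := by
    rintro G ⟨a, b, hb, ha', hb', e⟩
    refine ⟨-a, b, hb, neg_mem ha', hb', ?_⟩
    simp only [map_neg]
    linear_combination -e
  inv_mem' := by
    rintro G ⟨a, b, hb, ha', hb', e⟩
    by_cases ha : a = 0
    · have hG : G = 0 := by
        rw [ha, map_zero] at e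
        exact (mul_eq_zero.mp e).resolve_right (algebraMap_Hol_ne_zero hb)
      rw [hG, inv_zero]
      exact ⟨0, 1, one_ne_zero, zero_mem _, one_mem _, by simp⟩
    · refine ⟨b, a, ha, hb', ha', ?_⟩
      have hb0 := algebraMap_Hol_ne_zero hb
      have ha0 := algebraMap_Hol_ne_zero ha
      have hG : G ≠ 0 := by
        rintro rfl
        rw [zero_mul] at e
        exact ha0 e.symm
      rw [← e]
      field_simp

theorem mem_merCuspField {h : ℕ} [NeZero h] {G : Mer} :
    G ∈ merCuspField h ↔ IsMerCuspQuot h G := Iff.rfl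

theorem algebraMap_mem_merCuspField {h : ℕ} [NeZero h] {a : Hol}
    (ha : (a : ℍ → ℂ) ∈ merCusp h) : algebraMap Hol Mer a ∈ merCuspField h :=
  ⟨a, 1, one_ne_zero, ha, one_mem _, by simp⟩

/-- The subfield of `Mer` of elements all of whose `SL(2,ℤ)`-translates are quotients of functions
meromorphic at the cusp in `q^{1/h}`. -/
def merCuspAll (h : ℕ) [NeZero h] : Subfield Mer :=
  ⨅ γ : SL(2, ℤ), (merCuspField h).comap (compMer γ)

theorem mem_merCuspAll {h : ℕ} [NeZero h] {G : Mer} :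
    G ∈ merCuspAll h ↔ ∀ γ : SL(2, ℤ), IsMerCuspQuot h (compMer γ G) := by
  simp [merCuspAll, Subfield.mem_iInf, mem_merCuspField]

theorem isMerInf_compMer_of_mem_merCuspAll {h : ℕ} [NeZero h] {G : Mer} (hG : G ∈ merCuspAll h)
    (γ : SL(2, ℤ)) : IsMerInf (compMer γ G) :=
  (mem_merCuspAll.mp hG γ).isMerInf

theorem constMer_mem_merCuspAll (h : ℕ) [NeZero h] (c : ℂ) : constMer c ∈ merCuspAll h := by
  rw [mem_merCuspAll]
  intro γ
  rw [compMer_constMer]
  exact algebraMap_mem_merCuspField (const_mem_merCusp h c)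

theorem jNMer_mem_merCuspAll {N d : ℕ} [NeZero N] [NeZero d] (hd : d ∣ N) :
    jNMer d ∈ merCuspAll N := by
  rw [mem_merCuspAll]
  intro γ
  rw [compMer_jNMer]
  refine algebraMap_mem_merCuspField ?_
  have h1 : ((compHom γ (jNHol d) : Hol) : ℍ → ℂ) = modGen d γ := by
    funext τ
    rw [compHom_apply, coe_jNHol]
    rfl
  rw [h1]
  exact ModRing.RN_le_merCusp N (modGen_mem_RN hd γ)

/-! ### The standard realisation of `K_C N`, parametrically -/

namespace Param

/-- `K_C N = ℂ(j(q^d) : d ∣ N) ⊆ ℂ((q))`. -/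
abbrev KC (N : ℕ) [NeZero N] : Type := ↥(laurentBaseChange ℂ (modularFunctionFieldFull N))

/-- The generator `j(q^d)` of `K_C N`, `d ∣ N`. -/
def genC (N : ℕ) [NeZero N] (d : ℕ) [NeZero d] (hd : d ∣ N) : KC N :=
  ⟨coeffEmb ℂ (qExpand ℚ d jq), coeffEmb_mem_laurentBaseChange ℂ (jqd_mem_full N hd)⟩

theorem coeffEmb_algebraMap_rat (q : ℚ) :
    coeffEmb ℂ (algebraMap ℚ (LaurentSeries ℚ) q) =
      algebraMap ℂ (LaurentSeries ℂ) (algebraMap ℚ ℂ q) := by
  rw [algebraMap_laurentSeries_eq_single, algebraMap_laurentSeries_eq_single, coeffEmb,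
    coeffMap_single]

/-- **Generation principle for `K_C N`**: a ring hom out of `K_C N` sending the constants and the
generators `j(q^d)`, `d ∣ N`, into a subfield `S` sends everything into `S`. -/
theorem map_mem_of_gens (N : ℕ) [NeZero N] {M : Type*} [Field M] (Θ : KC N →+* M)
    (S : Subfield M) (hc : ∀ c : ℂ, Θ (algebraMap ℂ (KC N) c) ∈ S)
    (hg : ∀ (d : ℕ) [NeZero d] (hd : d ∣ N), Θ (genC N d hd) ∈ S) (x : KC N) : Θ x ∈ S := by
  have key : ∀ y : LaurentSeries ℂ, y ∈ laurentBaseChange ℂ (modularFunctionFieldFull N) →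
      ∃ hy : y ∈ laurentBaseChange ℂ (modularFunctionFieldFull N), Θ ⟨y, hy⟩ ∈ S := by
    intro y hy
    rw [mem_laurentBaseChange_iff] at hy
    induction hy using Subfield.closure_induction with
    | mem z hz =>
        rcases hz with ⟨c, rfl⟩ | ⟨w, hw, rfl⟩
        · exact ⟨(laurentBaseChange ℂ (modularFunctionFieldFull N)).algebraMap_mem c, hc c⟩
        · have hw' : w ∈ IntermediateField.adjoin ℚ (divisorExpansions N) := hw
          induction hw' using IntermediateField.adjoin_induction with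
          | mem v hv =>
              obtain ⟨d, hne, hd, rfl⟩ := hv
              exact ⟨_, hg d hd⟩
          | algebraMap q =>
              refine ⟨?_, ?_⟩
              · rw [coeffEmb_algebraMap_rat]
                exact (laurentBaseChange ℂ (modularFunctionFieldFull N)).algebraMap_mem _
              · have h1 : (⟨coeffEmb ℂ (algebraMap ℚ (LaurentSeries ℚ) q),
                    by rw [coeffEmb_algebraMap_rat]
                       exact (laurentBaseChange ℂ (modularFunctionFieldFull N)).algebraMap_mem _⟩ :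
                      KC N) = algebraMap ℂ (KC N) (algebraMap ℚ ℂ q) :=
                  Subtype.ext (coeffEmb_algebraMap_rat q)
                rw [h1]
                exact hc _
          | add a b ha hb iha ihb =>
              obtain ⟨ha1, ha2⟩ := iha ha
              obtain ⟨hb1, hb2⟩ := ihb hb
              refine ⟨by rw [map_add]; exact add_mem ha1 hb1, ?_⟩
              have h1 : (⟨coeffEmb ℂ (a + b), by rw [map_add]; exact add_mem ha1 hb1⟩ : KC N)
                  = ⟨coeffEmb ℂ a, ha1⟩ + ⟨coeffEmb ℂ b, hb1⟩ := Subtype.ext (map_add _ _ _)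
              rw [h1, map_add]
              exact add_mem ha2 hb2
          | inv a ha iha =>
              obtain ⟨ha1, ha2⟩ := iha ha
              refine ⟨by rw [map_inv₀]; exact inv_mem ha1, ?_⟩
              have h1 : (⟨coeffEmb ℂ a⁻¹, by rw [map_inv₀]; exact inv_mem ha1⟩ : KC N)
                  = (⟨coeffEmb ℂ a, ha1⟩ : KC N)⁻¹ := Subtype.ext (map_inv₀ _ _)
              rw [h1, map_inv₀]
              exact inv_mem ha2
          | mul a b ha hb iha ihb =>
              obtain ⟨ha1, ha2⟩ := iha ha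
              obtain ⟨hb1, hb2⟩ := ihb hb
              refine ⟨by rw [map_mul]; exact mul_mem ha1 hb1, ?_⟩
              have h1 : (⟨coeffEmb ℂ (a * b), by rw [map_mul]; exact mul_mem ha1 hb1⟩ : KC N)
                  = ⟨coeffEmb ℂ a, ha1⟩ * ⟨coeffEmb ℂ b, hb1⟩ := Subtype.ext (map_mul _ _ _)
              rw [h1, map_mul]
              exact mul_mem ha2 hb2
    | one =>
        refine ⟨one_mem _, ?_⟩
        have h1 : (⟨1, one_mem _⟩ : KC N) = 1 := rfl
        rw [h1, map_one]
        exact one_mem _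
    | add a b _ _ iha ihb =>
        obtain ⟨ha1, ha2⟩ := iha
        obtain ⟨hb1, hb2⟩ := ihb
        refine ⟨add_mem ha1 hb1, ?_⟩
        have h1 : (⟨a + b, add_mem ha1 hb1⟩ : KC N) = ⟨a, ha1⟩ + ⟨b, hb1⟩ := rfl
        rw [h1, map_add]
        exact add_mem ha2 hb2
    | neg a _ iha =>
        obtain ⟨ha1, ha2⟩ := iha
        refine ⟨neg_mem ha1, ?_⟩
        have h1 : (⟨-a, neg_mem ha1⟩ : KC N) = -⟨a, ha1⟩ := rfl
        rw [h1, map_neg]
        exact neg_mem ha2
    | inv a _ iha =>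
        obtain ⟨ha1, ha2⟩ := iha
        refine ⟨inv_mem ha1, ?_⟩
        have h1 : (⟨a⁻¹, inv_mem ha1⟩ : KC N) = (⟨a, ha1⟩ : KC N)⁻¹ := rfl
        rw [h1, map_inv₀]
        exact inv_mem ha2
    | mul a b _ _ iha ihb =>
        obtain ⟨ha1, ha2⟩ := iha
        obtain ⟨hb1, hb2⟩ := ihb
        refine ⟨mul_mem ha1 hb1, ?_⟩
        have h1 : (⟨a * b, mul_mem ha1 hb1⟩ : KC N) = ⟨a, ha1⟩ * ⟨b, hb1⟩ := rfl
        rw [h1, map_mul]
        exact mul_mem ha2 hb2
  obtain ⟨_, h⟩ := key x.1 x.2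
  exact h

theorem jNMer_one : jNMer 1 = jMer := by
  have h : jNHol 1 = jHol := Subtype.ext jN_one
  rw [jNMer, h, jMer]

/-- `R` is the standard realisation of `K_C N`: the constants go to the constants and the
series `j(q^d)` to the function `τ ↦ j(dτ)`. -/
structure IsStd (N : ℕ) [NeZero N] (R : Realisation ℂ (KC N) (Gamma0 N)) : Prop where
  iota : R.iota = RingHom.id ℂ
  gen : ∀ (d : ℕ) [NeZero d] (hd : d ∣ N), R.emb (genC N d hd) = jNMer d

section

variable {N : ℕ} [NeZero N] {R : Realisation ℂ (KC N) (Gamma0 N)}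

theorem IsStd.emb_const (hR : IsStd N R) (c : ℂ) :
    R.emb (algebraMap ℂ (KC N) c) = constMer c := by
  rw [R.emb_algebraMap, hR.iota]
  rfl

/-- Every translate of the function of an element of `K_C N` is meromorphic at the cusp. -/
theorem IsStd.emb_mem_merCuspAll (hR : IsStd N R) (x : KC N) : R.emb x ∈ merCuspAll N :=
  map_mem_of_gens N R.emb (merCuspAll N)
    (fun c => by rw [hR.emb_const]; exact constMer_mem_merCuspAll N c)
    (fun d _ hd => by rw [hR.gen d hd]; exact jNMer_mem_merCuspAll hd) x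

theorem IsStd.isMerInf_compMer_emb (hR : IsStd N R) (x : KC N) (γ : SL(2, ℤ)) :
    IsMerInf (compMer γ (R.emb x)) :=
  isMerInf_compMer_of_mem_merCuspAll (hR.emb_mem_merCuspAll x) γ

theorem IsStd.KCMer_le (hR : IsStd N R) : KCMer N ≤ R.emb.fieldRange := by
  rw [KCMer, Subfield.closure_le]
  rintro x (⟨c, rfl⟩ | hx)
  · exact ⟨algebraMap ℂ (KC N) c, hR.emb_const c⟩
  · rcases hx with rfl | hx
    · exact ⟨genC N 1 (one_dvd N), by rw [hR.gen 1 (one_dvd N), jNMer_one]⟩
    · rw [Set.mem_singleton_iff] at hx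
      subst hx
      exact ⟨genC N N dvd_rfl, hR.gen N dvd_rfl⟩

/-- **(MF4)(ii)** a `Γ₀(N)`-invariant element of `Mer` all of whose translates have at most a pole
of finite order at `i∞` is the function of an element of `K_C N`. -/
theorem IsStd.exists_emb_eq_of_invariant (hR : IsStd N R) (G : Mer)
    (hinv : ∀ γ ∈ Gamma0 N, compMer γ G = G)
    (hgr : ∀ γ : SL(2, ℤ), IsMerInf (compMer γ G)) : ∃ h : KC N, G = R.emb h := by
  obtain ⟨h, hh⟩ := hR.KCMer_le (mem_KCMer_of_invariant N hinv hgr)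
  exact ⟨h, hh.symm⟩

/-- **(MF4)(i) over `ℂ`**. -/
theorem IsStd.modFunStmt (hR : IsStd N R) : ModFunStmt R := by
  rintro n hn G hinv ⟨f, hf⟩
  refine hR.exists_emb_eq_of_invariant G (fun γ hγ => hinv ⟨γ, hγ⟩) (fun γ => ?_)
  apply IsMerInf.of_pow hn
  rw [← map_pow, hf]
  exact hR.isMerInf_compMer_emb f γ

/-- The standard realisation of `K_C N` restricts to `embMer N` on `F_N`. -/
theorem IsStd.emb_baseMap (hR : IsStd N R) (y : FN N) :
    R.emb (Desc.baseMap Basic.iota (modularFunctionFieldFull N) y) = embMer N y := by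
  have h := FFBridge.ringHom_ext (N := N)
    (R.emb.comp (Desc.baseMap Basic.iota (modularFunctionFieldFull N))) (embMer N) ?_ ?_
  · exact RingHom.congr_fun h y
  · intro a
    rw [RingHom.comp_apply, Desc.baseMap_algebraMap, hR.emb_const, embMer_algebraMap]
  · intro d _ hd
    have h1 : Desc.baseMap Basic.iota (modularFunctionFieldFull N)
        ⟨FFBridge.gen d, FFBridge.gen_mem hd⟩ = genC N d hd :=
      Subtype.ext (Desc.coeffMap_coeffEmb' Basic.iota _)
    have h2 : (⟨FFBridge.gen d, FFBridge.gen_mem hd⟩ : FN N) = jBarLevel N d hd := rfl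
    rw [RingHom.comp_apply, h1, hR.gen d hd, h2, embMer_apply, embFN_jBarLevel,
      mnToMer_algebraMap]
    rfl

/-- **(MF4)(i) over `Q̄`**. -/
theorem IsStd.modFunStmt_realQ (hR : IsStd N R) : ModFunStmt (realQ N) := by
  rintro n hn G hinv ⟨f, hf⟩
  have hf' : G ^ n = R.emb (Desc.baseMap Basic.iota (modularFunctionFieldFull N) f) := by
    rw [hR.emb_baseMap]
    exact hf
  obtain ⟨h, rfl⟩ := hR.modFunStmt n hn G hinv ⟨_, hf'⟩
  rw [← map_pow] at hf'
  have h1 : h ^ n = Desc.baseMap Basic.iota (modularFunctionFieldFull N) f := R.emb.injective hf'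
  have h2 : (h : LaurentSeries ℂ) ^ n = coeffMap Basic.iota (f : LaurentSeries Kbar) := by
    have := congrArg Subtype.val h1
    simpa using this
  obtain ⟨y, hy⟩ := LaurentRoot.mem_range_coeffMap_of_pow Basic.iota n hn _ _ h2
  have hyA : y ∈ laurentBaseChange Kbar (modularFunctionFieldFull N) :=
    Desc.mem_laurentBaseChange_of_coeffMap_mem Basic.iota _ y (by rw [hy]; exact h.2)
  refine ⟨⟨y, hyA⟩, ?_⟩
  show R.emb h = embMer N ⟨y, hyA⟩
  rw [← hR.emb_baseMap]
  congr 1
  exact Subtype.ext hy.symm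

end

end Param

end Fermat.Agent.P5.ModFun
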